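import Fermat.Agent.S17.H290.GaussCan
import Fermat.Agent.S17.H449.ProjNormal

/-!
# S17 / tower H — sub-project GAUSS (helper290): the output, with ONE open leaf (WEIL)

`gaussCan_main : Big E → WeilStatement E → GAUSSCanStatement E` and
`gauss_main    : Big E → WeilStatement E → GAUSSStatement E`
(projective normality: `H449.projNormal`; canonical divisors: `H17/HGauss`).

Sorry-free.
-/

set_option autoImplicit false

noncomputable section

namespace Fermat.Agent.S17.H290

open AlgebraicCurve
open Fermat.Agent.Lib.RR Fermat.Agent.S17.HWall Fermat.Agent.S17.HContract Fermat.Agent.S17.Wall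

variable {K F : Type*} [Field K] [CharZero K] [Field F] [Algebra K F] [FF1 K F]

/-- **GAUSS, final form**, from Weil's height machine. -/
theorem gaussCan_main [Algebra.IsAlgebraic ℚ K] (E : EmbData K F) (hBig : Big E)
    (hWeil : WeilStatement E) : GAUSSCanStatement E :=
  gaussCan_of_weil E (Fermat.Agent.S17.H449.projNormal E hBig) hWeil

/-- **GAUSS** (the input of `Wall.contract`), from Weil's height machine. -/
theorem gauss_main [IsAlgClosed K] [Algebra.IsAlgebraic ℚ K] (E : EmbData K F) (hBig : Big E)
    (hWeil : WeilStatement E) : GAUSSStatement E :=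
  gaussStatement_of_can (gaussCan_main E hBig hWeil)

end Fermat.Agent.S17.H290
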