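import Fermat.Agent.S17.H710.Wall.Defs
import Fermat.Prelude.Def_AlgebraicCurve_CanonicalDivisor

/-!
# S17 / tower H — sub-project GAUSS (lead helper290): definitions + FROZEN leaf statements

Target: `HContract.GAUSSStatement E` (`|κ(P) − (K₀ . P)| ≤ C`, `deg K₀ = 2g − 2`,
`κ(P) = h(pt P ∧ tn P) − 2 h(pt P)`), for the ONE embedding `E` of the wall
(`S17/H710/Wall/Defs.lean`), `K` algebraically closed and algebraic over `ℚ`.

Sorry-free (definitions only).  All `def … : Prop` are FROZEN leaf statements; the assembly
`GaussAsm.gauss_of_leaves` takes them as hypotheses.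

* `ExactZero E e G Z`        : `Z` is the exact common zero divisor of the sections
                               `aeval E.x (G p)` of `O(e m ∞)`;
* `TangentFormsStatement E`  : (GG-1) forms `G_{jk}` of some degree `e ≥ 3` with
                               `G(pt P) = c_P · (pt P ∧ tn P)`, `c_P ≠ 0`, off their exact common zero
                               divisor `Z`, and `deg Z = (e − 2) m − (2g − 2)`
                               [`ρ (x_j ∂x_k − x_k ∂x_j) = G_{jk}(x)`, local expansion, KW bridge];
* `WeilStatement E`          : (GG-2) Weil's height machine for a FIXED family of forms: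
                               `h(G(pt P)) = e h(pt P) − (Z . P) + O(1)` off `Z`;
* `AvoidStatement E`         : a hyperplane section avoiding a given finite set of places;
* `ProjNormalStatement E`    : projective normality: `L(e m ∞)` = values of forms of degree `e`;
* `CanonicalStatement K F`   : every nonzero Kähler differential has a divisor, of degree `2g − 2`
                               (= `Lib/KW` `hasCanonicalDivisor` + `degree_canonical`).

Assembly: `GaussAsm.gauss_of_leaves` (TangentForms + Weil + Avoid + E3 ⟹ GAUSS);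
`TangentForms` itself is assembled by helper290 from `ProjNormal`, `Canonical`, `Wall.PtStatement`
and the local expansion (`ExpHom.lean`, `GaussLocal.lean`).
-/

set_option autoImplicit false

noncomputable section

namespace Fermat.Agent.S17.H290

open AlgebraicCurve MvPolynomial
open Fermat.Agent.Lib.RR Fermat.Agent.S17.HWall Fermat.Agent.S17.HContract Fermat.Agent.S17.Wall

variable {K F : Type*} [Field K] [CharZero K] [Field F] [Algebra K F] [FF1 K F]

/-- `Z` is the exact common zero divisor of the sections `aeval E.x (G p)` of `O(e m ∞)`: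
every nonzero section vanishes on `Z`, and at every place some section vanishes exactly to the
order `Z P`. -/
def ExactZero (E : EmbData K F) (e : ℕ) {ι : Type*} (G : ι → MvPolynomial (Fin (E.r + 1)) K)
    (Z : Divisor K F) : Prop :=
  (∀ p, aeval E.x (G p) ≠ 0 → Z ≤ zdiv E e (G p)) ∧
  ∀ P : Place K F, ∃ p, aeval E.x (G p) ≠ 0 ∧ zdiv E e (G p) P = Z P

/-- **GG-1 (TANGENT FORMS).**  There are forms `G_p`, `p` a pair of indices, of one degree
`e ≥ 3`, with exact common zero divisor `Z ≥ 0` of degree `(e − 2) m − (2g − 2)`, such that at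
every place `P ∉ Z` the vector `(G_p (pt P))_p` is a nonzero multiple of the Plücker vector
`pt P ∧ tn P` of the tangent line.
(`G_{jk}(x) = ρ · (x_j ∂x_k − x_k ∂x_j)` for a derivation `∂ ≠ 0` of `F / K` and a suitable
`ρ ∈ Fˣ`; `Z = (e − 2) m ∞ − div(∂-differential) + div ρ`.) -/
def TangentFormsStatement (E : EmbData K F) : Prop :=
  ∃ (e : ℕ) (G : Fin (E.r + 1) × Fin (E.r + 1) → MvPolynomial (Fin (E.r + 1)) K)
    (Z : Divisor K F),
    3 ≤ e ∧ (∀ p, (G p).IsHomogeneous e) ∧ 0 ≤ Z ∧ ExactZero E e G Z ∧
    Divisor.degree Z = ((e : ℤ) - 2) * E.m - (2 * (genusR K F : ℤ) - 2) ∧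
    ∀ P : Place K F, Z P = 0 →
      ∃ c : K, c ≠ 0 ∧ ∀ p, eval (E.pt P) (G p) = c * wedge (E.pt P) (E.tn P) p

/-- **GG-2 (WEIL'S HEIGHT MACHINE for a fixed family).**  For a finite family `G` of forms of
degree `e` with exact common zero divisor `Z ≥ 0`:
`| h(G(pt P)) − e h(pt P) + (Z . P) | ≤ C` for all places `P ∉ Z`. -/
def WeilStatement (E : EmbData K F) : Prop :=
  ∀ (ι : Type) [Fintype ι] (e : ℕ) (G : ι → MvPolynomial (Fin (E.r + 1)) K) (Z : Divisor K F),
    (∀ p, (G p).IsHomogeneous e) → 0 ≤ Z → ExactZero E e G Z →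
    ∃ C : ℝ, ∀ P : Place K F, Z P = 0 →
      |ht (fun p => eval (E.pt P) (G p)) - (e : ℝ) * ht (E.pt P) + pairPt E Z P| ≤ C

/-- **AVOID.**  Some hyperplane section avoids a given finite set of places. -/
def AvoidStatement (E : EmbData K F) : Prop :=
  ∀ S : Finset (Place K F), ∃ a : Fin (E.r + 1) → K, a ≠ 0 ∧ ∀ P ∈ S, E.Z a P = 0

/-- **PN (projective normality).**  Every element of `L(e m ∞)` is the value at `E.x` of a form
of degree `e` (`L(m∞)^e = L(e m ∞)`, `Lib/RR` `L_mul_L`, `m ≥ 2g + 1`). -/
def ProjNormalStatement (E : EmbData K F) : Prop :=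
  ∀ (e : ℕ) (f : F), f ∈ riemannRochSpace ((e * E.m) • prim E.vinf) →
    ∃ G : MvPolynomial (Fin (E.r + 1)) K, G.IsHomogeneous e ∧ aeval E.x G = f

open KaehlerDifferential in
/-- **CAN (canonical divisors; = KW bridge).**  Every nonzero Kähler differential has a divisor,
and its degree is `2g − 2`. -/
def CanonicalStatement (K F : Type*) [Field K] [Field F] [Algebra K F] [FF1 K F] : Prop :=
  ∀ ω : Ω[F⁄K], ω ≠ 0 → ∃ W : Divisor K F,
    (∀ v : Place K F, W v = v.ordDifferential ω) ∧
    Divisor.degree W = 2 * (genusR K F : ℤ) - 2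

end Fermat.Agent.S17.H290
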