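import Fermat.Agent.S17.H290.GaussDefs
import Fermat.Agent.S17.H380.AbsBasic

/-!
# S17 / tower H — sub-project GAUSS (lead helper290): the assembly

`gauss_of_leaves : TangentFormsStatement E → WeilStatement E → AvoidStatement E →
  E3Statement E E → GAUSSStatement E`   (sorry-free).

`K₀ := (e − 2) Z_{a₀} − Z` for a hyperplane section `Z_{a₀}` avoiding `Z`:
`κ(P) = h(G(pt P)) − 2 h(P) = (e − 2) h(P) − (Z . P) + O(1) = (K₀ . P) + O(1)`.
-/

set_option autoImplicit false

noncomputable section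

namespace Fermat.Agent.S17.H290

open AlgebraicCurve MvPolynomial
open Fermat.Agent.Lib.RR Fermat.Agent.S17.HWall Fermat.Agent.S17.HContract Fermat.Agent.S17.Wall
open Fermat.Agent.S17.H380

variable {K F : Type*} [Field K] [CharZero K] [Field F] [Algebra K F] [FF1 K F]

theorem pairPt_sub (E : EmbData K F) (D D' : Divisor K F) (P : Place K F) :
    pairPt E (D - D') P = pairPt E D P - pairPt E D' P := by
  unfold pairPt
  rw [Finsupp.sum_sub_index]
  intro A n n'
  push_cast
  ring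

theorem pairPt_zsmul (E : EmbData K F) (c : ℤ) (D : Divisor K F) (P : Place K F) :
    pairPt E (c • D) P = (c : ℝ) * pairPt E D P := by
  unfold pairPt
  rw [Finsupp.sum_smul_index (by intro i; simp), Finsupp.mul_sum]
  refine Finsupp.sum_congr fun A _ => ?_
  push_cast [smul_eq_mul]
  ring

theorem isIntegral_of_isAlgebraic [Algebra.IsAlgebraic ℚ K] (z : K) : IsIntegral ℚ z :=
  (Algebra.IsAlgebraic.isAlgebraic z).isIntegral

/-- **GAUSS from its leaves.** -/
theorem gauss_of_leaves [Algebra.IsAlgebraic ℚ K] (E : EmbData K F)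
    (hT : TangentFormsStatement E) (hW : WeilStatement E) (hA : AvoidStatement E)
    (hE3 : E3Statement E E) : GAUSSStatement E := by
  classical
  obtain ⟨e, G, Z, he, hG, hZ0, hex, hdeg, htan⟩ := hT
  obtain ⟨a₀, ha₀, hav⟩ := hA Z.support
  obtain ⟨C₁, hC₁⟩ := hW _ e G Z hG hZ0 hex
  obtain ⟨C₂, hC₂⟩ := hE3
  have he2 : (1 : ℤ) ≤ (e : ℤ) - 2 := by omega
  refine ⟨((e : ℤ) - 2) • E.Z a₀ - Z, C₁ + ((e : ℝ) - 2) * (C₂ + |ht a₀|), ?_, ?_⟩
  · rw [map_sub, map_zsmul, E.degree_Z ha₀, hdeg, smul_eq_mul]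
    ring
  · intro P hP
    rw [Finsupp.sub_apply, Finsupp.smul_apply, smul_eq_mul] at hP
    have hZP : Z P = 0 := by
      by_contra h
      have hmem : P ∈ Z.support := Finsupp.mem_support_iff.mpr h
      rw [hav P hmem, mul_zero, zero_sub, neg_eq_zero] at hP
      exact h hP
    have hZa : E.Z a₀ P = 0 := by
      rw [hZP, sub_zero] at hP
      rcases mul_eq_zero.mp hP with h | h
      · omega
      · exact h
    have hdot : dot a₀ (E.pt P) ≠ 0 := by
      intro h0
      have := (E.pt_spec P a₀ ha₀).mp h0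
      unfold EmbData.Z at hZa
      omega
    have h3 := hC₂ a₀ P ha₀ hdot
    have h1 := hC₁ P hZP
    obtain ⟨c, hc, hGc⟩ := htan P hZP
    have hht : ht (fun p => eval (E.pt P) (G p)) = ht (wedge (E.pt P) (E.tn P)) := by
      have e1 : (fun p => eval (E.pt P) (G p)) = c • wedge (E.pt P) (E.tn P) := by
        funext p
        rw [hGc p, Pi.smul_apply, smul_eq_mul]
      rw [e1]
      exact absLogHeight_smul _ (fun i => isIntegral_of_isAlgebraic _) hc
        (isIntegral_of_isAlgebraic c)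
    rw [hht] at h1
    rw [pairPt_sub, pairPt_zsmul]
    unfold kap
    have he' : (0 : ℝ) ≤ (e : ℝ) - 2 := by
      have : (3 : ℝ) ≤ e := by exact_mod_cast he
      linarith
    have key : ht (wedge (E.pt P) (E.tn P)) - 2 * ht (E.pt P) -
        ((((e : ℤ) - 2 : ℤ) : ℝ) * pairPt E (E.Z a₀) P - pairPt E Z P) =
        (ht (wedge (E.pt P) (E.tn P)) - (e : ℝ) * ht (E.pt P) + pairPt E Z P) -
          ((e : ℝ) - 2) * (pairPt E (E.Z a₀) P - ht a₀ - ht (E.pt P)) -
          ((e : ℝ) - 2) * ht a₀ := by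
      push_cast
      ring
    rw [key]
    have b1 := abs_le.mp h1
    have b3 := abs_le.mp h3
    have b4 := abs_le.mp (le_refl |ht a₀|)
    have m3l : -(((e : ℝ) - 2) * C₂) ≤
        ((e : ℝ) - 2) * (pairPt E (E.Z a₀) P - ht a₀ - ht (E.pt P)) := by
      have := mul_le_mul_of_nonneg_left b3.1 he'
      linarith
    have m3u : ((e : ℝ) - 2) * (pairPt E (E.Z a₀) P - ht a₀ - ht (E.pt P)) ≤
        ((e : ℝ) - 2) * C₂ := mul_le_mul_of_nonneg_left b3.2 he'
    have m4l : -(((e : ℝ) - 2) * |ht a₀|) ≤ ((e : ℝ) - 2) * ht a₀ := by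
      have := mul_le_mul_of_nonneg_left b4.1 he'
      linarith
    have m4u : ((e : ℝ) - 2) * ht a₀ ≤ ((e : ℝ) - 2) * |ht a₀| :=
      mul_le_mul_of_nonneg_left b4.2 he'
    rw [abs_le]
    constructor <;> nlinarith [b1.1, b1.2]

end Fermat.Agent.S17.H290
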