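import Fermat.Agent.S17.H290.Expansion

/-!
# S17 / tower H (helper290): the expansion homomorphism at a place of degree one

* `expO v π hv hπ : O_v →+* K⟦X⟧`, injective (`expO_injective`);
* `expF v π hv hπ : F →+* K⸨X⸩` with
  `expF_algebraMap : expF (algebraMap K F c) = HahnSeries.C c`,
  `expF_unif      : expF π = single 1 1`,
  `expF_order     : f ≠ 0 → (expF f).order = v.ord f`,
  `expF_coeff_zero`: the constant coefficient of `expF f` is the value of `f` at `v`.
-/

set_option autoImplicit false

noncomputable section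

namespace Fermat.Agent.S17.H290

open AlgebraicCurve Fermat.Agent.Lib.RR Fermat.Agent.S17.H890 Polynomial

variable {K F : Type*} [Field K] [Field F] [Algebra K F]

theorem vanGE_zero_of_mem (v : Place K F) {a : F} (ha : a ∈ v.toValuationSubring) :
    VanGE v 0 a :=
  Or.inr (ord_nonneg_of_mem v ha)

/-- The expansion homomorphism `O_v →+* K⟦X⟧` at a place of degree one. -/
def expO (v : Place K F) (π : F) (hv : v.deg = 1) (hπ : v.ord π = 1) :
    v.toValuationSubring →+* PowerSeries K where
  toFun a := expSeries v π (a : F)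
  map_one' := ((isExpansion_one v π).eq_expSeries hv hπ).symm
  map_zero' := ((isExpansion_zero v π).eq_expSeries hv hπ).symm
  map_add' a b :=
    (((isExpansion_expSeries hv hπ (vanGE_zero_of_mem v a.2)).add
      (isExpansion_expSeries hv hπ (vanGE_zero_of_mem v b.2))).eq_expSeries hv hπ).symm
  map_mul' a b :=
    (((isExpansion_expSeries hv hπ (vanGE_zero_of_mem v a.2)).mul hπ
      (isExpansion_expSeries hv hπ (vanGE_zero_of_mem v b.2))).eq_expSeries hv hπ).symm

variable (v : Place K F) (π : F) (hv : v.deg = 1) (hπ : v.ord π = 1)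

theorem expO_apply (a : v.toValuationSubring) : expO v π hv hπ a = expSeries v π (a : F) := rfl

theorem isExpansion_expO (a : v.toValuationSubring) :
    IsExpansion v π (a : F) (expO v π hv hπ a) :=
  isExpansion_expSeries hv hπ (vanGE_zero_of_mem v a.2)

theorem expO_eq_of_isExpansion {a : v.toValuationSubring} {p : PowerSeries K}
    (h : IsExpansion v π (a : F) p) : expO v π hv hπ a = p :=
  (h.eq_expSeries hv hπ).symm

theorem expO_injective : Function.Injective (expO v π hv hπ) := by
  rw [injective_iff_map_eq_zero]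
  intro a ha
  have := ((isExpansion_expO v π hv hπ a).eq_zero_iff hπ).mp ha
  exact Subtype.ext this

theorem expO_algebraMap (c : K) :
    expO v π hv hπ (algebraMap K v.toValuationSubring c) = PowerSeries.C c :=
  expO_eq_of_isExpansion v π hv hπ (isExpansion_const v π c)

theorem expO_unif (hmem : π ∈ v.toValuationSubring) :
    expO v π hv hπ ⟨π, hmem⟩ = PowerSeries.X :=
  expO_eq_of_isExpansion v π hv hπ (isExpansion_unif hπ)

/-- the constant coefficient of the expansion is the value at `v` -/
theorem coeff_zero_expO (a : v.toValuationSubring) :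
    PowerSeries.coeff 0 (expO v π hv hπ a) = pval v (a : F) :=
  ((isExpansion_expO v π hv hπ a).isVal.pval_eq).symm

/-- The expansion homomorphism `F →+* K⸨X⸩` at a place of degree one. -/
def expF : F →+* LaurentSeries K :=
  IsFractionRing.lift (A := v.toValuationSubring) (K := F)
    (g := (HahnSeries.ofPowerSeries ℤ K).comp (expO v π hv hπ))
    (HahnSeries.ofPowerSeries_injective.comp (expO_injective v π hv hπ))

theorem expF_coe (a : v.toValuationSubring) :
    expF v π hv hπ (a : F) = HahnSeries.ofPowerSeries ℤ K (expO v π hv hπ a) :=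
  IsFractionRing.lift_algebraMap _ a

theorem expF_of_mem {f : F} (hf : f ∈ v.toValuationSubring) :
    expF v π hv hπ f = HahnSeries.ofPowerSeries ℤ K (expO v π hv hπ ⟨f, hf⟩) :=
  expF_coe v π hv hπ ⟨f, hf⟩

theorem expF_algebraMap (c : K) :
    expF v π hv hπ (algebraMap K F c) = HahnSeries.C c := by
  have h := expF_coe v π hv hπ (algebraMap K v.toValuationSubring c)
  rw [expO_algebraMap, Place.coe_algebraMap] at h
  rw [h]
  exact HahnSeries.ofPowerSeries_C c

theorem expF_unif : expF v π hv hπ π = HahnSeries.single 1 1 := by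
  have hmem : π ∈ v.toValuationSubring := mem_of_ord_nonneg v (by rw [hπ]; norm_num)
  rw [expF_of_mem v π hv hπ hmem, expO_unif v π hv hπ hmem]
  exact HahnSeries.ofPowerSeries_X

/-- the expansion of a unit at `v` has order `0` -/
theorem expF_order_of_ord_eq_zero {g : F} (hg0 : g ≠ 0) (hg : v.ord g = 0) :
    (expF v π hv hπ g).order = 0 := by
  have hmem : g ∈ v.toValuationSubring := mem_of_ord_nonneg v hg.ge
  have hne : expF v π hv hπ g ≠ 0 := (_root_.map_ne_zero _).mpr hg0
  have hc : (expF v π hv hπ g).coeff 0 ≠ 0 := by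
    rw [expF_of_mem v π hv hπ hmem]
    have := PowerSeries.coeff_coe (f := expO v π hv hπ ⟨g, hmem⟩) (0 : ℤ)
    rw [this]
    simp only [lt_self_iff_false, if_false, Int.natAbs_zero]
    rw [coeff_zero_expO]
    exact pval_ne_zero_of_ord_eq_zero v hv hg0 hg
  apply le_antisymm (HahnSeries.order_le_of_coeff_ne_zero hc)
  rw [HahnSeries.le_order_iff_forall hne]
  intro j hj
  rw [expF_of_mem v π hv hπ hmem]
  have := PowerSeries.coeff_coe (f := expO v π hv hπ ⟨g, hmem⟩) j
  rw [this, if_pos hj]

/-- **The expansion is compatible with the order functions.** -/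
theorem expF_order {f : F} (hf : f ≠ 0) : (expF v π hv hπ f).order = v.ord f := by
  have hπ0 : π ≠ 0 := ne_zero_of_ord_ne_zero v (by rw [hπ]; exact one_ne_zero)
  set n := v.ord f with hn
  set g := f * π ^ (-n) with hg
  have hg0 : g ≠ 0 := mul_ne_zero hf (zpow_ne_zero _ hπ0)
  have hgord : v.ord g = 0 := by
    rw [hg, v.ord_mul hf (zpow_ne_zero _ hπ0), v.ord_zpow, hπ]
    omega
  have hfg : f = g * π ^ n := by
    rw [hg, mul_assoc, ← zpow_add₀ hπ0]
    simp
  have h1 : expF v π hv hπ f = expF v π hv hπ g * HahnSeries.single n 1 := by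
    conv_lhs => rw [hfg]
    rw [map_mul, map_zpow₀, expF_unif, ← RatFunc.single_zpow]
  have hs : (HahnSeries.single n (1 : K) : LaurentSeries K) ≠ 0 := by
    rw [Ne, HahnSeries.single_eq_zero_iff]
    exact one_ne_zero
  rw [h1, HahnSeries.order_mul ((_root_.map_ne_zero _).mpr hg0) hs,
    expF_order_of_ord_eq_zero v π hv hπ hg0 hgord, HahnSeries.order_single one_ne_zero, zero_add]

/-- the constant coefficient of the expansion of a regular function is its value -/
theorem expF_coeff_zero {f : F} (hf : f ∈ v.toValuationSubring) :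
    (expF v π hv hπ f).coeff 0 = pval v f := by
  rw [expF_of_mem v π hv hπ hf]
  have := PowerSeries.coeff_coe (f := expO v π hv hπ ⟨f, hf⟩) (0 : ℤ)
  rw [this]
  simp only [lt_self_iff_false, if_false, Int.natAbs_zero]
  exact coeff_zero_expO v π hv hπ ⟨f, hf⟩

end Fermat.Agent.S17.H290
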