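import Fermat.Agent.S17.H890.Val
import Mathlib.RingTheory.PowerSeries.Trunc
import Mathlib.RingTheory.LaurentSeries

/-!
# S17 / tower H (helper290): the local expansion at a place of degree one

`F / K` a field extension, `v` a place of `F / K` of degree one (residue field `K`), `π` a
uniformizer at `v`.  Every function `f` regular at `v` has a unique expansion
`f = c₀ + c₁ π + c₂ π² + …` with `c_i ∈ K`, in the sense that
`f - (c₀ + … + c_{n-1} π^{n-1})` vanishes to order `≥ n` at `v` for every `n`.

* `IsExpansion v π f p` : the power series `p ∈ K⟦X⟧` is the expansion of `f`;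
* `IsExpansion.unique`, `exists_isExpansion`, `IsExpansion.add`, `IsExpansion.mul`, …;
* `expO v π hv hπ : O_v →+* K⟦X⟧` : the expansion homomorphism, injective;
* `expF v π hv hπ : F →+* K⸨X⸩` : its extension to `F`, with
  `expF (algebraMap c) = C c`, `expF π = X`, `(expF f).order = ord_v f`.

Mathlib + `Lib/RR/Ord` + `H890/Val` only; no completion, no topology.
-/

set_option autoImplicit false

noncomputable section

namespace Fermat.Agent.S17.H290

open AlgebraicCurve Fermat.Agent.Lib.RR Fermat.Agent.S17.H890 Polynomial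

variable {K F : Type*} [Field K] [Field F] [Algebra K F]

/-! ## `x = 0` or `ord_v x ≥ n` -/

/-- `x` vanishes to order at least `n` at `v` (`x = 0` allowed). -/
def VanGE (v : Place K F) (n : ℤ) (x : F) : Prop := x = 0 ∨ n ≤ v.ord x

theorem vanGE_zero (v : Place K F) (n : ℤ) : VanGE v n (0 : F) := Or.inl rfl

theorem VanGE.mono {v : Place K F} {n m : ℤ} {x : F} (h : VanGE v n x) (hmn : m ≤ n) :
    VanGE v m x := by
  rcases h with h | h
  · exact Or.inl h
  · exact Or.inr (hmn.trans h)

theorem VanGE.add {v : Place K F} {n : ℤ} {x y : F} (hx : VanGE v n x) (hy : VanGE v n y) :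
    VanGE v n (x + y) :=
  ord_add_of_le v hx hy

theorem VanGE.neg {v : Place K F} {n : ℤ} {x : F} (hx : VanGE v n x) : VanGE v n (-x) := by
  rcases hx with h | h
  · exact Or.inl (by rw [h, neg_zero])
  · exact Or.inr (by rwa [ord_neg])

theorem VanGE.sub {v : Place K F} {n : ℤ} {x y : F} (hx : VanGE v n x) (hy : VanGE v n y) :
    VanGE v n (x - y) := by
  rw [sub_eq_add_neg]
  exact hx.add hy.neg

theorem VanGE.mul {v : Place K F} {n m : ℤ} {x y : F} (hx : VanGE v n x) (hy : VanGE v m y) :
    VanGE v (n + m) (x * y) := by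
  rcases eq_or_ne x 0 with rfl | hx0
  · exact Or.inl (zero_mul _)
  rcases eq_or_ne y 0 with rfl | hy0
  · exact Or.inl (mul_zero _)
  right
  rw [v.ord_mul hx0 hy0]
  have h1 := hx.resolve_left hx0
  have h2 := hy.resolve_left hy0
  omega

theorem vanGE_algebraMap (v : Place K F) (c : K) : VanGE v 0 (algebraMap K F c) :=
  Or.inr (ord_algebraMap v c).ge

theorem vanGE_pow {v : Place K F} {π : F} (hπ : v.ord π = 1) (n : ℕ) :
    VanGE v n (π ^ n) := by
  right
  rw [ord_pow, hπ, mul_one]

theorem VanGE.isVal_zero {v : Place K F} {x : F} (h : VanGE v 1 x) : IsVal v x 0 := by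
  rw [isVal_zero_iff]
  rcases h with h | h
  · exact Or.inl h
  · exact Or.inr (by omega)

theorem vanGE_one_of_isVal_zero {v : Place K F} {x : F} (h : IsVal v x 0) : VanGE v 1 x := by
  rw [isVal_zero_iff] at h
  rcases h with h | h
  · exact Or.inl h
  · exact Or.inr (by omega)

/-- division by a uniformizer lowers the order of vanishing by one -/
theorem VanGE.div_unif {v : Place K F} {π : F} (hπ : v.ord π = 1) {n : ℤ} {x : F}
    (h : VanGE v (n + 1) x) : VanGE v n (x / π) := by
  rcases eq_or_ne x 0 with rfl | hx0
  · exact Or.inl (zero_div _)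
  right
  have hπ0 : π ≠ 0 := ne_zero_of_ord_ne_zero v (by rw [hπ]; exact one_ne_zero)
  rw [div_eq_mul_inv, v.ord_mul hx0 (inv_ne_zero hπ0), v.ord_inv, hπ]
  have := h.resolve_left hx0
  omega

/-! ## Polynomials in a uniformizer -/

/-- a polynomial in `π` is regular at `v` -/
theorem vanGE_aeval {v : Place K F} {π : F} (hπ : v.ord π = 1) (r : K[X]) :
    VanGE v 0 (aeval π r) := by
  induction r using Polynomial.induction_on' with
  | add p q hp hq =>
    rw [map_add]
    exact hp.add hq
  | monomial n a =>
    rw [aeval_monomial]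
    have h1 := (vanGE_algebraMap v a).mul (vanGE_pow hπ n)
    exact h1.mono (by positivity)

/-- a polynomial divisible by `X ^ n`, evaluated at `π`, vanishes to order `≥ n` -/
theorem vanGE_aeval_of_dvd {v : Place K F} {π : F} (hπ : v.ord π = 1) {n : ℕ} {r : K[X]}
    (h : (X : K[X]) ^ n ∣ r) : VanGE v n (aeval π r) := by
  obtain ⟨s, rfl⟩ := h
  rw [map_mul, map_pow, aeval_X]
  have := (vanGE_pow hπ n).mul (vanGE_aeval hπ s)
  simpa using this

/-! ## Expansions -/

/-- `p` is the expansion of `f` at `v` with respect to the uniformizer `π`. -/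
def IsExpansion (v : Place K F) (π : F) (f : F) (p : PowerSeries K) : Prop :=
  ∀ n : ℕ, VanGE v n (f - aeval π (p.trunc n))

theorem IsExpansion.vanGE_zero {v : Place K F} {π : F} {f : F}
    {p : PowerSeries K} (h : IsExpansion v π f p) : VanGE v 0 f := by
  have h0 := h 0
  simpa using h0

theorem IsExpansion.add {v : Place K F} {π : F} {f g : F} {p q : PowerSeries K}
    (hf : IsExpansion v π f p) (hg : IsExpansion v π g q) : IsExpansion v π (f + g) (p + q) := by
  intro n
  have e : f + g - aeval π ((p + q).trunc n) =
      (f - aeval π (p.trunc n)) + (g - aeval π (q.trunc n)) := by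
    rw [map_add, map_add]; ring
  rw [e]
  exact (hf n).add (hg n)

theorem IsExpansion.neg {v : Place K F} {π : F} {f : F} {p : PowerSeries K}
    (hf : IsExpansion v π f p) : IsExpansion v π (-f) (-p) := by
  intro n
  have e : -f - aeval π ((-p).trunc n) = -(f - aeval π (p.trunc n)) := by
    rw [map_neg, map_neg]; ring
  rw [e]
  exact (hf n).neg

theorem isExpansion_zero (v : Place K F) (π : F) : IsExpansion v π 0 0 := by
  intro n
  simp [VanGE]

theorem isExpansion_const (v : Place K F) (π : F) (c : K) :
    IsExpansion v π (algebraMap K F c) (PowerSeries.C c) := by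
  intro n
  cases n with
  | zero =>
    simp only [PowerSeries.trunc_zero', map_zero, sub_zero, Nat.cast_zero]
    exact vanGE_algebraMap v c
  | succ n =>
    rw [PowerSeries.trunc_C, aeval_C, sub_self]
    exact vanGE_zero v _

theorem isExpansion_one (v : Place K F) (π : F) : IsExpansion v π 1 1 := by
  have := isExpansion_const v π (1 : K)
  simpa using this

theorem isExpansion_unif {v : Place K F} {π : F} (hπ : v.ord π = 1) :
    IsExpansion v π π PowerSeries.X := by
  intro n
  rcases n with _ | _ | n
  · simp only [PowerSeries.trunc_zero', map_zero, sub_zero, Nat.cast_zero]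
    exact Or.inr (by rw [hπ]; norm_num)
  · rw [PowerSeries.trunc_one_X, map_zero, sub_zero]
    exact Or.inr (by rw [hπ]; norm_num)
  · rw [PowerSeries.trunc_X, aeval_X, sub_self]
    exact vanGE_zero v _

theorem IsExpansion.mul {v : Place K F} {π : F} (hπ : v.ord π = 1) {f g : F}
    {p q : PowerSeries K}
    (hf : IsExpansion v π f p) (hg : IsExpansion v π g q) : IsExpansion v π (f * g) (p * q) := by
  intro n
  have e : ∀ P Q T : K[X], f * g - aeval π T =
      (f - aeval π P) * g + aeval π P * (g - aeval π Q) + aeval π (P * Q - T) := by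
    intro P Q T
    have h1 : aeval π (P * Q - T) = aeval π P * aeval π Q - aeval π T := by
      rw [map_sub, map_mul]
    rw [h1]; ring
  rw [e (p.trunc n) (q.trunc n)]
  set P := p.trunc n with hP
  set Q := q.trunc n with hQ
  have h1 : VanGE v n ((f - aeval π P) * g) := by
    have := (hf n).mul hg.vanGE_zero
    simpa using this
  have h2 : VanGE v n (aeval π P * (g - aeval π Q)) := by
    have := (vanGE_aeval hπ P).mul (hg n)
    simpa using this
  have h3 : VanGE v n (aeval π (P * Q - (p * q).trunc n)) := by
    apply vanGE_aeval_of_dvd hπ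
    rw [Polynomial.X_pow_dvd_iff]
    intro d hd
    rw [Polynomial.coeff_sub, PowerSeries.coeff_trunc, if_pos hd, sub_eq_zero]
    have h4 := congrArg (fun r : K[X] => r.coeff d) (PowerSeries.trunc_trunc_mul_trunc (n := n) p q)
    simp only [PowerSeries.coeff_trunc, if_pos hd] at h4
    rw [← h4, ← Polynomial.coeff_coe, Polynomial.coe_mul]
  exact (h1.add h2).add h3

/-- **Uniqueness of the expansion.** -/
theorem IsExpansion.unique {v : Place K F} {π : F} (hπ : v.ord π = 1) {f : F}
    {p q : PowerSeries K} (hp : IsExpansion v π f p) (hq : IsExpansion v π f q) : p = q := by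
  have hπ0 : π ≠ 0 := ne_zero_of_ord_ne_zero v (by rw [hπ]; exact one_ne_zero)
  have key : ∀ n : ℕ, ∀ i < n, PowerSeries.coeff i p = PowerSeries.coeff i q := by
    intro n
    induction n with
    | zero => intro i hi; omega
    | succ n ih =>
      intro i hi
      rcases Nat.lt_succ_iff_lt_or_eq.mp hi with h | rfl
      · exact ih i h
      have htr : p.trunc i = q.trunc i := by
        ext d
        rw [PowerSeries.coeff_trunc, PowerSeries.coeff_trunc]
        split_ifs with hd
        · exact ih d hd
        · rfl
      have h1 : VanGE v ((i + 1 : ℕ) : ℤ)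
          (aeval π (q.trunc (i + 1)) - aeval π (p.trunc (i + 1))) := by
        have := (hp (i + 1)).sub (hq (i + 1))
        have e : f - aeval π (p.trunc (i + 1)) - (f - aeval π (q.trunc (i + 1))) =
            aeval π (q.trunc (i + 1)) - aeval π (p.trunc (i + 1)) := by ring
        rwa [e] at this
      rw [PowerSeries.trunc_succ, PowerSeries.trunc_succ, htr, map_add, map_add,
        add_sub_add_left_eq_sub, aeval_monomial, aeval_monomial, ← sub_mul, ← map_sub] at h1
      by_contra hne
      have hc : PowerSeries.coeff i q - PowerSeries.coeff i p ≠ 0 :=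
        sub_ne_zero.mpr (fun h => hne h.symm)
      have hc' : algebraMap K F (PowerSeries.coeff i q - PowerSeries.coeff i p) ≠ 0 := by
        rwa [Ne, map_eq_zero]
      rcases h1 with h1 | h1
      · exact (mul_ne_zero hc' (pow_ne_zero i hπ0)) h1
      · rw [v.ord_mul hc' (pow_ne_zero i hπ0), ord_algebraMap, ord_pow, hπ] at h1
        push_cast at h1
        omega
  ext i
  exact key (i + 1) i (Nat.lt_succ_self i)

/-! ## Existence -/

/-- the sequence of tails `t₀ = f`, `t_{n+1} = (t_n - t_n(v)) / π` -/
def tailSeq (v : Place K F) (π : F) (f : F) : ℕ → F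
  | 0 => f
  | n + 1 => (tailSeq v π f n - algebraMap K F (pval v (tailSeq v π f n))) / π

/-- the expansion of `f` at `v` (meaningful if `f` is regular at `v`) -/
def expSeries (v : Place K F) (π : F) (f : F) : PowerSeries K :=
  PowerSeries.mk fun n => pval v (tailSeq v π f n)

theorem tailSeq_spec {v : Place K F} (hv : v.deg = 1) {π : F} (hπ : v.ord π = 1) {f : F}
    (hf : VanGE v 0 f) (n : ℕ) :
    VanGE v 0 (tailSeq v π f n) ∧
      f - aeval π ((expSeries v π f).trunc n) = π ^ n * tailSeq v π f n := by
  have hπ0 : π ≠ 0 := ne_zero_of_ord_ne_zero v (by rw [hπ]; exact one_ne_zero)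
  induction n with
  | zero =>
    refine ⟨hf, ?_⟩
    simp [tailSeq]
  | succ n ih =>
    obtain ⟨h1, h2⟩ := ih
    have hval : IsVal v (tailSeq v π f n) (pval v (tailSeq v π f n)) :=
      isVal_pval_of_ord_nonneg v hv h1
    have h3 : VanGE v ((0 : ℤ) + 1)
        (tailSeq v π f n - algebraMap K F (pval v (tailSeq v π f n))) := by
      rcases hval with h | h
      · exact Or.inl h
      · exact Or.inr (by omega)
    refine ⟨h3.div_unif hπ, ?_⟩
    rw [PowerSeries.trunc_succ, map_add, ← sub_sub, h2, aeval_monomial]
    show π ^ n * tailSeq v π f n - algebraMap K F (PowerSeries.coeff n (expSeries v π f)) * π ^ n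
      = π ^ (n + 1) * ((tailSeq v π f n - algebraMap K F (pval v (tailSeq v π f n))) / π)
    rw [expSeries, PowerSeries.coeff_mk]
    field_simp
    ring

theorem isExpansion_expSeries {v : Place K F} (hv : v.deg = 1) {π : F} (hπ : v.ord π = 1)
    {f : F} (hf : VanGE v 0 f) : IsExpansion v π f (expSeries v π f) := by
  intro n
  obtain ⟨h1, h2⟩ := tailSeq_spec hv hπ hf n
  rw [h2]
  have := (vanGE_pow hπ n).mul h1
  simpa using this

theorem exists_isExpansion {v : Place K F} (hv : v.deg = 1) {π : F} (hπ : v.ord π = 1)
    {f : F} (hf : VanGE v 0 f) : ∃ p, IsExpansion v π f p :=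
  ⟨_, isExpansion_expSeries hv hπ hf⟩

theorem IsExpansion.eq_expSeries {v : Place K F} (hv : v.deg = 1) {π : F} (hπ : v.ord π = 1)
    {f : F} {p : PowerSeries K} (h : IsExpansion v π f p) : p = expSeries v π f :=
  h.unique hπ (isExpansion_expSeries hv hπ h.vanGE_zero)

/-- the constant term of the expansion is the value -/
theorem IsExpansion.isVal {v : Place K F} {π : F} {f : F} {p : PowerSeries K}
    (h : IsExpansion v π f p) : IsVal v f (PowerSeries.coeff 0 p) := by
  have h1 := h 1
  rw [PowerSeries.trunc_one_left, aeval_C] at h1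
  rcases h1 with h1 | h1
  · exact Or.inl h1
  · exact Or.inr (by push_cast at h1; omega)

/-- the expansion vanishes iff the function does -/
theorem IsExpansion.eq_zero_iff {v : Place K F} {π : F} (hπ : v.ord π = 1) {f : F}
    {p : PowerSeries K} (h : IsExpansion v π f p) : p = 0 ↔ f = 0 := by
  constructor
  · intro hp
    subst hp
    by_contra hf
    have h1 := h (v.ord f + 1).toNat
    simp only [map_zero, sub_zero] at h1
    have h0 := h.vanGE_zero.resolve_left hf
    have h2 := h1.resolve_left hf
    have h3 : (((v.ord f + 1).toNat : ℕ) : ℤ) = v.ord f + 1 := Int.toNat_of_nonneg (by omega)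
    omega
  · intro hf
    subst hf
    exact h.unique hπ (isExpansion_zero v π)

end Fermat.Agent.S17.H290
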