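import Fermat.Agent.S17.H290.GaussDefs
import Fermat.Agent.S17.H440.EmbGlue

/-!
# S17 / tower H — sub-project GAUSS (helper290): AVOID

`avoid : AvoidStatement E` — some hyperplane section avoids a given finite set of places
(a vector space over an infinite field is not a finite union of proper subspaces).

Sorry-free.
-/

set_option autoImplicit false

noncomputable section

namespace Fermat.Agent.S17.H290

open AlgebraicCurve
open Fermat.Agent.Lib.RR Fermat.Agent.S17.HWall Fermat.Agent.S17.HContract Fermat.Agent.S17.Wall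

variable {K F : Type*} [Field K] [CharZero K] [Field F] [Algebra K F] [FF1 K F]

/-- the hyperplane of linear forms vanishing at `y` -/
def hypPerp {n : ℕ} (y : Fin n → K) : Submodule K (Fin n → K) where
  carrier := {a | dot a y = 0}
  add_mem' := by
    intro a b ha hb
    show dotProduct (a + b) y = 0
    rw [add_dotProduct]
    rw [show dotProduct a y = 0 from ha, show dotProduct b y = 0 from hb, add_zero]
  zero_mem' := by
    show dotProduct (0 : Fin n → K) y = 0
    exact zero_dotProduct y
  smul_mem' := by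
    intro c a ha
    show dotProduct (c • a) y = 0
    rw [smul_dotProduct, show dotProduct a y = 0 from ha, smul_zero]

omit [CharZero K] in
theorem mem_hypPerp {n : ℕ} (y a : Fin n → K) : a ∈ hypPerp y ↔ dot a y = 0 := Iff.rfl

omit [CharZero K] in
theorem hypPerp_ne_top {n : ℕ} {y : Fin n → K} (hy : y ≠ 0) : hypPerp y ≠ ⊤ := by
  intro h
  obtain ⟨j, hj⟩ : ∃ j, y j ≠ 0 := by
    by_contra hcon
    push Not at hcon
    exact hy (funext hcon)
  have h1 : (Pi.single j 1 : Fin n → K) ∈ hypPerp y := by rw [h]; trivial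
  rw [mem_hypPerp] at h1
  have h2 : dot (Pi.single j 1 : Fin n → K) y = y j := by
    show dotProduct (Pi.single j 1) y = y j
    rw [single_dotProduct, one_mul]
  rw [h2] at h1
  exact hj h1

/-- **AVOID.** -/
theorem avoid (E : EmbData K F) : AvoidStatement E := by
  classical
  intro S
  have hK : Infinite K := inferInstance
  set s : Finset (Submodule K (Fin (E.r + 1) → K)) :=
    insert ⊥ (S.image fun P => hypPerp (E.pt P)) with hs
  have htop : (⊤ : Submodule K (Fin (E.r + 1) → K)) ∉ s := by
    rw [hs, Finset.mem_insert, Finset.mem_image]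
    rintro (h | ⟨P, -, hP⟩)
    · exact top_ne_bot h
    · exact hypPerp_ne_top (Fermat.Agent.S17.H440.pt_ne_zero E P) hP
  have hne := Subspace.biUnion_ne_univ_of_top_notMem htop
  obtain ⟨a, ha⟩ : ∃ a : Fin (E.r + 1) → K,
      a ∉ ⋃ p ∈ s, ((p : Submodule K (Fin (E.r + 1) → K)) : Set (Fin (E.r + 1) → K)) := by
    by_contra hcon
    push Not at hcon
    exact hne (Set.eq_univ_of_forall hcon)
  simp only [Set.mem_iUnion, not_exists] at ha
  have ha0 : a ≠ 0 := by
    intro h0
    apply ha ⊥ (by rw [hs]; exact Finset.mem_insert_self _ _)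
    rw [h0]
    exact zero_mem _
  refine ⟨a, ha0, fun P hP => ?_⟩
  have h1 : ¬ dot a (E.pt P) = 0 := fun h =>
    ha (hypPerp (E.pt P))
      (by rw [hs]; exact Finset.mem_insert_of_mem (Finset.mem_image_of_mem _ hP)) h
  have h2 : ¬ 0 < E.Z a P := fun h => h1 ((E.pt_spec P a ha0).mpr h)
  have h3 : (0 : Divisor K F) P ≤ E.Z a P := (Finsupp.le_def.mp (E.Z_nonneg a)) P
  rw [Finsupp.coe_zero, Pi.zero_apply] at h3
  omega

end Fermat.Agent.S17.H290
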