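import Fermat.Agent.S17.H290.TanForms
import Fermat.Agent.S17.H290.GaussAvoid
import Fermat.Agent.S17.H290.GaussAsm

/-!
# S17 / tower H — sub-project GAUSS (helper290): the statement from its three open leaves

`gauss_of_pn_can_weil : ProjNormalStatement E → CanonicalStatement K F → WeilStatement E →
  E3Statement E E → GAUSSStatement E`.

Closed inside: TAN (`TanLocal.tan_local`), TANGENT FORMS (`TanForms.tangentForms_of`),
AVOID (`GaussAvoid.avoid`), the assembly (`GaussAsm.gauss_of_leaves`).

Sorry-free.
-/

set_option autoImplicit false

noncomputable section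

namespace Fermat.Agent.S17.H290

open AlgebraicCurve
open Fermat.Agent.Lib.RR Fermat.Agent.S17.HWall Fermat.Agent.S17.HContract Fermat.Agent.S17.Wall

variable {K F : Type*} [Field K] [CharZero K] [Field F] [Algebra K F] [FF1 K F]

/-- **GAUSS** from projective normality, the canonical divisor, Weil's height machine and
`(E3)`. -/
theorem gauss_of_pn_can_weil [Algebra.IsAlgebraic ℚ K] (E : EmbData K F)
    (hPN : ProjNormalStatement E) (hCAN : CanonicalStatement K F) (hW : WeilStatement E)
    (hE3 : E3Statement E E) : GAUSSStatement E :=
  gauss_of_leaves E (tangentForms_of E hPN hCAN) hW (avoid E) hE3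

end Fermat.Agent.S17.H290
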