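import Fermat.Agent.S17.H290.TanFormsAt
import Fermat.Agent.S17.H290.GaussAsm
import Fermat.Agent.S17.H17.HGauss
import Fermat.Agent.S17.H380.E3OfL1

/-!
# S17 / tower H — sub-project GAUSS (helper290): `GAUSSCanStatement` from PN + WEIL

FROZEN output of the GAUSS sub-project (`S17/H17/HGauss.lean`):

* `princ_of_weil   : ProjNormalStatement E → WeilStatement E → PRINCStatement E`
    (`f = G₁(x) / G₂(x)`, Weil for the single forms `G₁`, `G₂`);
* `gaussAt_of_weil : ProjNormalStatement E → WeilStatement E → GAUSSAtStatement E W` for the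
    divisor `W` of EVERY nonzero Kähler differential
    (`tangentForms_at` + Weil for `(G, Z)`, for the form `1 ∈ L(m ∞)` and for `ρ`);
* `gaussCan_of_weil : ProjNormalStatement E → WeilStatement E → GAUSSCanStatement E`.

Sorry-free.
-/

set_option autoImplicit false

noncomputable section

namespace Fermat.Agent.S17.H290

open AlgebraicCurve KaehlerDifferential MvPolynomial
open Fermat.Agent.Lib.RR Fermat.Agent.S17.HWall Fermat.Agent.S17.HContract Fermat.Agent.S17.Wall
open Fermat.Agent.S17.H380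

variable {K F : Type*} [Field K] [CharZero K] [Field F] [Algebra K F] [FF1 K F]

/-- finitely many exceptions are absorbed by the constant -/
theorem bounded_of_off_finset {α : Type*} (S : Finset α) (φ : α → ℝ) (C : ℝ)
    (h : ∀ P, P ∉ S → |φ P| ≤ C) : ∃ C' : ℝ, ∀ P, |φ P| ≤ C' := by
  classical
  refine ⟨|C| + ∑ P ∈ S, |φ P|, fun P => ?_⟩
  have hsum : 0 ≤ ∑ Q ∈ S, |φ Q| := Finset.sum_nonneg fun _ _ => abs_nonneg _
  by_cases hPS : P ∈ S
  · have := Finset.single_le_sum (f := fun Q => |φ Q|) (fun _ _ => abs_nonneg _) hPS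
    have h2 := abs_nonneg C
    linarith
  · have := h P hPS
    have h2 := le_abs_self C
    linarith

omit [CharZero K] in
/-- the zero divisor of a single nonzero section is its own exact zero divisor -/
theorem exactZero_single (E : EmbData K F) (k : ℕ) (G : MvPolynomial (Fin (E.r + 1)) K)
    (hG : aeval E.x G ≠ 0) : ExactZero E k (fun _ : Unit => G) (zdiv E k G) :=
  ⟨fun _ _ => le_refl _, fun _ => ⟨(), hG, rfl⟩⟩

omit [CharZero K] in
theorem zdiv_apply (E : EmbData K F) (k : ℕ) (G : MvPolynomial (Fin (E.r + 1)) K)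
    (hG : aeval E.x G ≠ 0) (P : Place K F) :
    zdiv E k G P = P.ord (aeval E.x G) + (k : ℤ) * (E.m • prim E.vinf : Divisor K F) P := by
  unfold zdiv
  rw [dif_neg hG, Finsupp.add_apply, divOf_apply, smul_smul_prim_apply]

omit [CharZero K] in
theorem zdiv_nonneg (E : EmbData K F) (k : ℕ) (G : MvPolynomial (Fin (E.r + 1)) K)
    (hG : aeval E.x G ≠ 0) (hmem : aeval E.x G ∈ riemannRochSpace ((k * E.m) • prim E.vinf)) :
    0 ≤ zdiv E k G := by
  rw [Finsupp.le_def]
  intro P
  rw [zdiv_apply E k G hG P, Finsupp.coe_zero, Pi.zero_apply]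
  rcases (mem_L_iff.mp hmem) P with h | h
  · exact absurd h hG
  · rw [smul_smul_prim_apply] at h
    linarith

/-- **Weil's machine for ONE form**: `(Z_G . P) = k h(P) + O(1)` off `Z_G`. -/
theorem weil_single [Algebra.IsAlgebraic ℚ K] (E : EmbData K F) (hWeil : WeilStatement E)
    (k : ℕ) (G : MvPolynomial (Fin (E.r + 1)) K) (hGh : G.IsHomogeneous k)
    (hG : aeval E.x G ≠ 0) (hmem : aeval E.x G ∈ riemannRochSpace ((k * E.m) • prim E.vinf)) :
    ∃ C : ℝ, ∀ P : Place K F, zdiv E k G P = 0 →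
      |pairPt E (zdiv E k G) P - (k : ℝ) * ht (E.pt P)| ≤ C := by
  obtain ⟨C, hC⟩ := hWeil Unit k (fun _ => G) (zdiv E k G) (fun _ => hGh)
    (zdiv_nonneg E k G hG hmem) (exactZero_single E k G hG)
  refine ⟨C, fun P hP => ?_⟩
  have h := hC P hP
  have h0 : ht (fun _ : Unit => eval (E.pt P) G) = 0 :=
    absLogHeight_const _ (isIntegral_of_isAlgebraic _)
  rw [h0, zero_sub] at h
  have e : pairPt E (zdiv E k G) P - (k : ℝ) * ht (E.pt P)
      = -(k : ℝ) * ht (E.pt P) + pairPt E (zdiv E k G) P := by ring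
  rw [e, neg_mul]
  exact h

/-- **(PRINC)** from projective normality and Weil's machine. -/
theorem princ_of_weil [Algebra.IsAlgebraic ℚ K] (E : EmbData K F)
    (hPN : ProjNormalStatement E) (hWeil : WeilStatement E) : PRINCStatement E := by
  classical
  intro f Df hf hDf
  set g : ℕ := genusR K F with hg
  have hm1 : 1 ≤ E.m := by have := E.hm; omega
  -- the pole divisor of `f`
  set N : Divisor K F := Df.mapRange (fun n : ℤ => max (-n) 0) (by simp) with hN
  have hNv : ∀ v : Place K F, N v = max (-Df v) 0 := fun v => by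
    rw [hN, Finsupp.mapRange_apply]
  set k : ℕ := (Divisor.degree N + g).toNat + 1 with hk
  have hkN : Divisor.degree N + g < (k : ℤ) := by
    have := Int.self_le_toNat (Divisor.degree N + g)
    rw [hk]
    push_cast
    omega
  set B : Divisor K F := (k * E.m) • prim E.vinf - N with hB
  have hdegB : Divisor.degree B = (k : ℤ) * E.m - Divisor.degree N := by
    rw [hB, map_sub, map_nsmul]
    unfold prim
    rw [Divisor.degree_single, FF1.deg_eq_one]
    push_cast
    simp only [nsmul_eq_mul]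
    push_cast
    ring
  have hell : 0 < ell B := by
    have h1 := riemann_inequality B
    rw [hdegB] at h1
    have h2 : (k : ℤ) * 1 ≤ (k : ℤ) * E.m :=
      mul_le_mul_of_nonneg_left (by exact_mod_cast hm1) (by positivity)
    have h3 : (0 : ℤ) < ell B := by linarith
    exact_mod_cast h3
  obtain ⟨g₂, hg₂0, hg₂⟩ := H98.exists_ne_zero_mem_L_of_ell_pos hell
  have hg₂ord : ∀ v : Place K F,
      N v - ((k * E.m) • prim E.vinf : Divisor K F) v ≤ v.ord g₂ := by
    intro v
    rcases (mem_L_iff.mp hg₂) v with h | h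
    · exact absurd h hg₂0
    · rw [hB, Finsupp.sub_apply] at h
      linarith
  have hg₁0 : f * g₂ ≠ 0 := mul_ne_zero hf hg₂0
  have hmem₂ : g₂ ∈ riemannRochSpace ((k * E.m) • prim E.vinf) := by
    rw [mem_L_iff]
    intro v
    right
    have h1 := hg₂ord v
    have h2 : 0 ≤ N v := by rw [hNv v]; exact le_max_right _ _
    linarith
  have hmem₁ : f * g₂ ∈ riemannRochSpace ((k * E.m) • prim E.vinf) := by
    rw [mem_L_iff]
    intro v
    right
    rw [v.ord_mul hf hg₂0, ← hDf v]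
    have h1 := hg₂ord v
    have h2 : -Df v ≤ N v := by rw [hNv v]; exact le_max_left _ _
    linarith
  obtain ⟨G₁, hG₁h, hG₁⟩ := hPN k (f * g₂) hmem₁
  obtain ⟨G₂, hG₂h, hG₂⟩ := hPN k g₂ hmem₂
  have hG₁0 : aeval E.x G₁ ≠ 0 := by rw [hG₁]; exact hg₁0
  have hG₂0 : aeval E.x G₂ ≠ 0 := by rw [hG₂]; exact hg₂0
  obtain ⟨C₁, hC₁⟩ := weil_single E hWeil k G₁ hG₁h hG₁0 (by rw [hG₁]; exact hmem₁)
  obtain ⟨C₂, hC₂⟩ := weil_single E hWeil k G₂ hG₂h hG₂0 (by rw [hG₂]; exact hmem₂)
  have hDfeq : Df = zdiv E k G₁ - zdiv E k G₂ := by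
    ext v
    rw [Finsupp.sub_apply, zdiv_apply E k G₁ hG₁0, zdiv_apply E k G₂ hG₂0, hG₁, hG₂,
      v.ord_mul hf hg₂0, hDf v]
    ring
  obtain ⟨C, hC⟩ := bounded_of_off_finset ((zdiv E k G₁).support ∪ (zdiv E k G₂).support)
    (fun P => pairPt E Df P) (C₁ + C₂) (by
      intro P hP
      rw [Finset.mem_union, not_or, Finsupp.notMem_support_iff, Finsupp.notMem_support_iff] at hP
      have h1 := hC₁ P hP.1
      have h2 := hC₂ P hP.2
      show |pairPt E Df P| ≤ C₁ + C₂
      rw [hDfeq, pairPt_sub]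
      have e : pairPt E (zdiv E k G₁) P - pairPt E (zdiv E k G₂) P
          = (pairPt E (zdiv E k G₁) P - (k : ℝ) * ht (E.pt P))
            - (pairPt E (zdiv E k G₂) P - (k : ℝ) * ht (E.pt P)) := by ring
      rw [e]
      exact (abs_sub _ _).trans (add_le_add h1 h2))
  exact ⟨C, fun P _ => hC P⟩

/-- **(GAUSS) at the divisor of a Kähler differential**, from PN and WEIL. -/
theorem gaussAt_of_weil [Algebra.IsAlgebraic ℚ K] (E : EmbData K F)
    (hPN : ProjNormalStatement E) (hWeil : WeilStatement E)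
    (ω : Ω[F⁄K]) (hω0 : ω ≠ 0) (W : Divisor K F)
    (hW : ∀ v : Place K F, W v = v.ordDifferential ω) : GAUSSAtStatement E W := by
  classical
  obtain ⟨e, G, ρ, hρ, -, hGhom, hZ0, hex, htan⟩ := tangentForms_at E hPN ω hω0 W hW
  set Z : Divisor K F := (e * E.m) • prim E.vinf - W + divOf ρ hρ with hZ
  obtain ⟨C₁, hC₁⟩ := hWeil _ (e + 2) G Z hGhom hZ0 hex
  obtain ⟨C₂, hC₂⟩ := princ_of_weil E hPN hWeil ρ (divOf ρ hρ) hρ (fun v => divOf_apply ρ hρ v)
  -- the form `1 ∈ L(m ∞)`
  have h1mem : (1 : F) ∈ riemannRochSpace (E.m • prim E.vinf) := by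
    rw [mem_L_iff]
    intro v
    right
    rw [Place.ord_one, Fermat.Agent.S17.H440.smul_prim_apply]
    have h0 : (0 : ℤ) ≤ prim E.vinf v := by
      unfold prim
      rw [Finsupp.single_apply]
      split_ifs <;> norm_num
    have : (0 : ℤ) ≤ (E.m : ℤ) * prim E.vinf v := mul_nonneg (by positivity) h0
    linarith
  obtain ⟨a₁, ha₁⟩ := Fermat.Agent.S17.H440.exists_lin_eq E h1mem
  have hL : aeval E.x (linForm a₁) = 1 := by
    rw [Fermat.Agent.S17.H230.aeval_linForm, ha₁]
  have hL0 : aeval E.x (linForm a₁) ≠ 0 := by rw [hL]; exact one_ne_zero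
  have hLmem : aeval E.x (linForm a₁) ∈ riemannRochSpace ((1 * E.m) • prim E.vinf) := by
    rw [hL, one_mul]; exact h1mem
  obtain ⟨C₃, hC₃⟩ := weil_single E hWeil 1 (linForm a₁) (linForm_isHomogeneous a₁) hL0 hLmem
  have hZ₁ : zdiv E 1 (linForm a₁) = E.m • prim E.vinf := by
    ext v
    rw [zdiv_apply E 1 (linForm a₁) hL0, hL, Place.ord_one]
    push_cast
    ring
  rw [hZ₁] at hC₃
  refine GAUSSAtStatement.of_off_finset
    (Z.support ∪ (E.m • prim E.vinf : Divisor K F).support ∪ (divOf ρ hρ).support)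
    ⟨C₁ + (e : ℝ) * C₃ + C₂, fun P hPS _ => ?_⟩
  rw [Finset.mem_union, Finset.mem_union, not_or, not_or, Finsupp.notMem_support_iff,
    Finsupp.notMem_support_iff, Finsupp.notMem_support_iff] at hPS
  obtain ⟨⟨hPZ, hPm⟩, hPρ⟩ := hPS
  have b1 := hC₁ P hPZ
  have b2 := hC₂ P hPρ
  have b3 := hC₃ P hPm
  obtain ⟨c, hc, hGc⟩ := htan P hPZ
  have hht : ht (fun p => eval (E.pt P) (G p)) = ht (wedge (E.pt P) (E.tn P)) := by
    have e1 : (fun p => eval (E.pt P) (G p)) = c • wedge (E.pt P) (E.tn P) := by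
      funext p
      rw [hGc p, Pi.smul_apply, smul_eq_mul]
    rw [e1]
    exact absLogHeight_smul _ (fun i => isIntegral_of_isAlgebraic _) hc
      (isIntegral_of_isAlgebraic c)
  rw [hht] at b1
  have hpZ : pairPt E Z P = (e : ℝ) * pairPt E (E.m • prim E.vinf) P - pairPt E W P
      + pairPt E (divOf ρ hρ) P := by
    rw [hZ, pairPt_add', pairPt_sub]
    have h2 : ((e * E.m) • prim E.vinf : Divisor K F) = (e : ℤ) • (E.m • prim E.vinf) := by
      rw [natCast_zsmul, mul_smul]
    rw [h2, pairPt_zsmul]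
    push_cast
    ring
  rw [hpZ] at b1
  unfold kap
  have key : ht (wedge (E.pt P) (E.tn P)) - 2 * ht (E.pt P) - pairPt E W P =
      (ht (wedge (E.pt P) (E.tn P)) - ((e + 2 : ℕ) : ℝ) * ht (E.pt P) +
        ((e : ℝ) * pairPt E (E.m • prim E.vinf) P - pairPt E W P + pairPt E (divOf ρ hρ) P))
      - (e : ℝ) * (pairPt E (E.m • prim E.vinf) P - ((1 : ℕ) : ℝ) * ht (E.pt P))
      - pairPt E (divOf ρ hρ) P := by
    push_cast
    ring
  rw [key]
  have he0 : (0 : ℝ) ≤ (e : ℝ) := by positivity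
  have b3' : |(e : ℝ) * (pairPt E (E.m • prim E.vinf) P - ((1 : ℕ) : ℝ) * ht (E.pt P))|
      ≤ (e : ℝ) * C₃ := by
    rw [abs_mul, abs_of_nonneg he0]
    exact mul_le_mul_of_nonneg_left b3 he0
  calc _ ≤ |(ht (wedge (E.pt P) (E.tn P)) - ((e + 2 : ℕ) : ℝ) * ht (E.pt P) +
        ((e : ℝ) * pairPt E (E.m • prim E.vinf) P - pairPt E W P + pairPt E (divOf ρ hρ) P))
      - (e : ℝ) * (pairPt E (E.m • prim E.vinf) P - ((1 : ℕ) : ℝ) * ht (E.pt P))|
        + |pairPt E (divOf ρ hρ) P| := abs_sub _ _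
    _ ≤ (|ht (wedge (E.pt P) (E.tn P)) - ((e + 2 : ℕ) : ℝ) * ht (E.pt P) +
        ((e : ℝ) * pairPt E (E.m • prim E.vinf) P - pairPt E W P + pairPt E (divOf ρ hρ) P)|
        + |(e : ℝ) * (pairPt E (E.m • prim E.vinf) P - ((1 : ℕ) : ℝ) * ht (E.pt P))|)
        + |pairPt E (divOf ρ hρ) P| := by
          gcongr
          exact abs_sub _ _
    _ ≤ C₁ + (e : ℝ) * C₃ + C₂ := add_le_add (add_le_add b1 b3') b2

/-- **The FROZEN output of the GAUSS sub-project**: (GAUSS) at the divisor of every nonzero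
Kähler differential, from projective normality and Weil's height machine. -/
theorem gaussCan_of_weil [Algebra.IsAlgebraic ℚ K] (E : EmbData K F)
    (hPN : ProjNormalStatement E) (hWeil : WeilStatement E) : GAUSSCanStatement E :=
  fun ω W hω hW => gaussAt_of_weil E hPN hWeil ω hω W hW

end Fermat.Agent.S17.H290
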