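import Fermat.Agent.S17.H290.GaussMain
import Fermat.Agent.S17.H200.Weil

/-!
# S17 / tower H — sub-project GAUSS (helper290): CLOSED

UNCONDITIONAL, for every embedding `E` with `4 g + 1 ≤ E.m`
(`K` of characteristic `0`, algebraic over `ℚ`; `FF1 K F`):

* `gaussCan : Big E → GAUSSCanStatement E`  — the FROZEN output of the GAUSS sub-project
  (`S17/H17/HGauss.lean`): `|κ(P) − (W . P)| ≤ C_W` off `W`, for the divisor `W` of EVERY
  nonzero Kähler differential;
* `princ    : Big E → PRINCStatement E`;
* `gauss    : Big E → GAUSSStatement E`     — the input of `Wall.contract` (`IsAlgClosed K`).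

Leaves: TAN / TANGENT FORMS / AVOID / PRINC / assembly (helper290), PN (helper449),
WEIL (helper200), canonical divisors (helper80, via `H17/HGauss`).

Sorry-free.
-/

set_option autoImplicit false

noncomputable section

namespace Fermat.Agent.S17.H290

open AlgebraicCurve
open Fermat.Agent.Lib.RR Fermat.Agent.S17.HWall Fermat.Agent.S17.HContract Fermat.Agent.S17.Wall

variable {K F : Type*} [Field K] [CharZero K] [Field F] [Algebra K F] [FF1 K F]

/-- **GAUSS, final form** (unconditional). -/
theorem gaussCan [Algebra.IsAlgebraic ℚ K] (E : EmbData K F) (hBig : Big E) :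
    GAUSSCanStatement E :=
  gaussCan_main E hBig (Fermat.Agent.S17.H200.weilStatement E hBig)

/-- **PRINC** (unconditional). -/
theorem princ [Algebra.IsAlgebraic ℚ K] (E : EmbData K F) (hBig : Big E) :
    PRINCStatement E :=
  princ_of_weil E (Fermat.Agent.S17.H449.projNormal E hBig)
    (Fermat.Agent.S17.H200.weilStatement E hBig)

/-- **GAUSS** (the input of `Wall.contract`; unconditional). -/
theorem gauss [IsAlgClosed K] [Algebra.IsAlgebraic ℚ K] (E : EmbData K F) (hBig : Big E) :
    GAUSSStatement E :=
  gaussStatement_of_can (gaussCan E hBig)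

end Fermat.Agent.S17.H290
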