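import Fermat.Agent.S17.H290.ExpHom
import Fermat.Agent.S24.H84.OrdDiff

/-!
# S17 / tower H (helper290): derivations and local expansions (piece GAUSS, local part)

`v` a place of degree one of `F / K`, `π` a uniformizer at `v` such that `dπ` spans `Ω[F⁄K]`
(e.g. characteristic zero and `F` algebraic over `K(π)`: `S24.H84.span_D_eq_top`), `∂` a `K`-derivation of `F` with `∂ π = 1`.  Then `∂` is
`d/dX` in the local expansion at `v`:

* `expF_deriv`          : `expF (∂ y) = d/dX (expF y)`;
* `deriv_mem`           : `∂` maps the valuation ring `O_v` into itself;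
* `pval_deriv`          : `(∂ y)(v) = ` the coefficient of `X` in the expansion of `y`;
* `vanGE_two_iff`       : for `y` regular at `v`:
                          `ord_v y ≥ 2` (or `y = 0`) `↔ y(v) = 0 ∧ (∂ y)(v) = 0`;
* `vanGE_one_iff`       : `ord_v y ≥ 1` (or `y = 0`) `↔ y(v) = 0`.
-/

set_option autoImplicit false

noncomputable section

namespace Fermat.Agent.S17.H290

open AlgebraicCurve Fermat.Agent.Lib.RR Fermat.Agent.S17.H890 KaehlerDifferential
open Fermat.Agent.S24.H84

variable {K F : Type*} [Field K] [Field F] [Algebra K F]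
variable (v : Place K F) (π : F) (hv : v.deg = 1) (hπ : v.ord π = 1)

omit v π in

theorem laurentD_single_one : laurentD K (HahnSeries.single (1 : ℤ) (1 : K)) = 1 := by
  ext n
  rw [laurentD_coeff, HahnSeries.coeff_single, HahnSeries.coeff_one]
  by_cases hn : n = 0
  · subst hn; simp
  · have h1 : n + 1 ≠ 1 := fun h => hn (by omega)
    rw [if_neg h1, if_neg hn, mul_zero]

/-- **A derivation with `∂ π = 1` is `d/dX` in the local expansion.** -/
theorem expF_deriv (hspan : Submodule.span F {D K F π} = ⊤) (δ : Derivation K F F)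
    (h1 : δ π = 1) (y : F) :
    expF v π hv hπ (δ y) = laurentD K (expF v π hv hπ y) := by
  obtain ⟨L, hL1, hL2⟩ := exists_kaehler_to_laurent (expF v π hv hπ) (RingHom.id K)
    (fun c => by rw [expF_algebraMap]; rfl)
  have hy : D K F y ∈ Submodule.span F {D K F π} := by rw [hspan]; trivial
  obtain ⟨c, hc⟩ := Submodule.mem_span_singleton.mp hy
  have e1 : δ y = c := by
    have h := congrArg δ.liftKaehlerDifferential hc
    rw [map_smul, Derivation.liftKaehlerDifferential_comp_D,
      Derivation.liftKaehlerDifferential_comp_D, h1, smul_eq_mul, mul_one] at h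
    exact h.symm
  have e2 : laurentD K (expF v π hv hπ y) = expF v π hv hπ c := by
    rw [← hL2 y, ← hc, hL1, hL2, expF_unif, laurentD_single_one, mul_one]
  rw [e1, e2]

omit v π in
/-- the order of the derivative of a Laurent series with nonnegative order is nonnegative -/
theorem laurentD_coeff_neg_eq_zero {f : LaurentSeries K} (h : 0 ≤ f.order)
    {j : ℤ} (hj : j < 0) : (laurentD K f).coeff j = 0 := by
  rw [laurentD_coeff]
  rcases eq_or_ne (j + 1) 0 with h0 | h0
  · rw [h0]; simp
  · rw [HahnSeries.coeff_eq_zero_of_lt_order (by omega), mul_zero]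

include hv hπ in
/-- `∂` maps `O_v` into `O_v`. -/
theorem deriv_mem (hspan : Submodule.span F {D K F π} = ⊤) (δ : Derivation K F F)
    (h1 : δ π = 1) {y : F} (hy : y ∈ v.toValuationSubring) : δ y ∈ v.toValuationSubring := by
  rcases eq_or_ne (δ y) 0 with h0 | h0
  · rw [h0]; exact zero_mem _
  apply mem_of_ord_nonneg
  rw [← expF_order v π hv hπ h0, expF_deriv v π hv hπ hspan δ h1]
  have hy0 : y ≠ 0 := by
    rintro rfl
    exact h0 (map_zero δ)
  have hne : laurentD K (expF v π hv hπ y) ≠ 0 := by
    rw [← expF_deriv v π hv hπ hspan δ h1]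
    exact (_root_.map_ne_zero _).mpr h0
  rw [HahnSeries.le_order_iff_forall hne]
  intro j hj
  exact laurentD_coeff_neg_eq_zero
    (by rw [expF_order v π hv hπ hy0]; exact ord_nonneg_of_mem v hy) hj

/-- the value of `∂ y` at `v` is the coefficient of `X` in the expansion of `y` -/
theorem pval_deriv (hspan : Submodule.span F {D K F π} = ⊤) (δ : Derivation K F F)
    (h1 : δ π = 1) {y : F} (hy : y ∈ v.toValuationSubring) :
    pval v (δ y) = (expF v π hv hπ y).coeff 1 := by
  rw [← expF_coeff_zero v π hv hπ (deriv_mem v π hv hπ hspan δ h1 hy),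
    expF_deriv v π hv hπ hspan δ h1, laurentD_coeff]
  simp

omit π in
include hv in
/-- a regular function vanishes at `v` iff its value is `0` -/
theorem vanGE_one_iff {y : F} (hy : y ∈ v.toValuationSubring) :
    VanGE v 1 y ↔ pval v y = 0 := by
  constructor
  · intro h
    exact h.isVal_zero.pval_eq
  · intro h
    have := isVal_pval_of_ord_nonneg v hv (Or.inr (ord_nonneg_of_mem v hy))
    rw [h] at this
    exact vanGE_one_of_isVal_zero this

include hv hπ in
/-- a regular function vanishes to order `≥ 2` at `v` iff its value and the value of its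
derivative vanish -/
theorem vanGE_two_iff (hspan : Submodule.span F {D K F π} = ⊤) (δ : Derivation K F F)
    (h1 : δ π = 1) {y : F} (hy : y ∈ v.toValuationSubring) :
    VanGE v 2 y ↔ pval v y = 0 ∧ pval v (δ y) = 0 := by
  rw [pval_deriv v π hv hπ hspan δ h1 hy, ← expF_coeff_zero v π hv hπ hy]
  rcases eq_or_ne y 0 with rfl | hy0
  · simp [VanGE]
  have hne : expF v π hv hπ y ≠ 0 := (_root_.map_ne_zero _).mpr hy0
  have hord := expF_order v π hv hπ hy0
  have h0 : 0 ≤ (expF v π hv hπ y).order := by rw [hord]; exact ord_nonneg_of_mem v hy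
  constructor
  · intro h
    have h2 : (2 : ℤ) ≤ (expF v π hv hπ y).order := by rw [hord]; exact h.resolve_left hy0
    exact ⟨HahnSeries.coeff_eq_zero_of_lt_order (by omega),
      HahnSeries.coeff_eq_zero_of_lt_order (by omega)⟩
  · rintro ⟨c0, c1⟩
    right
    rw [← hord, HahnSeries.le_order_iff_forall hne]
    intro j hj
    rcases lt_or_ge j 0 with hj0 | hj0
    · exact HahnSeries.coeff_eq_zero_of_lt_order (by omega)
    · have : j = 0 ∨ j = 1 := by omega
      rcases this with rfl | rfl
      · exact c0
      · exact c1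

end Fermat.Agent.S17.H290
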