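import Fermat.Agent.S17.H290.GaussLocal
import Fermat.Agent.S24.FFSum

/-!
# S17 / tower H + Lib/KW piece EXP (helper290): orders of differentials at abstract places

`K` algebraically closed of characteristic zero, `F / K` a function field in one variable
(`FF.IsCoord K x`).  With the abstract local expansion `expF` (`ExpHom.lean`) the local formulas
of `S24/H84/OrdDiff.lean` hold at EVERY place of `F`:

* `ordDifferential_D_of_ord_ne_zero`     : `ord_v y ≠ 0 → ord_v (dy) = ord_v y - 1`
  (= the exact statement EXP of `Lib/KW/Skeleton.lean`);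
* `ordDifferential_D_of_ord_sub_ne_zero` : `ord_v (dy) = ord_v (y - a) - 1`;
* `ordDifferential_D_of_ord_inv_ne_zero` : `ord_v (dy) = - ord_v y⁻¹ - 1`;
* `ordDifferential_D_unif`               : `ord_v (dπ) = 0` for every uniformizer `π` at `v`;
* `ordDifferential_D_nonneg`             : `ord_v (dy) ≥ 0` for `y` regular at `v`, `dy ≠ 0`.
-/

set_option autoImplicit false

noncomputable section

namespace Fermat.Agent.S17.H290

open AlgebraicCurve Fermat.Agent.Lib.RR KaehlerDifferential IntermediateField
open Fermat.Agent.S24 Fermat.Agent.S24.H84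

variable {K F : Type*} [Field K] [Field F] [Algebra K F] [IsAlgClosed K] [CharZero K]

omit [CharZero K] in
/-- every place has degree one -/
theorem deg_eq_one_of_isCoord (x : F) [hx : FF.IsCoord K x] (v : Place K F) : v.deg = 1 :=
  FF.deg_eq_one v hx.transcendental

/-- **EXP**: `ord_v (dy) = ord_v y - 1` whenever `ord_v y ≠ 0`. -/
theorem ordDifferential_D_of_ord_ne_zero (x : F) [FF.IsCoord K x] (v : Place K F) (y : F)
    (hy : v.ord y ≠ 0) : v.ordDifferential (D K F y) = v.ord y - 1 := by
  have hv := deg_eq_one_of_isCoord x v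
  obtain ⟨π, hπ⟩ := exists_ord_eq_one v
  have : v.DCoordGenerates := place_dCoordGenerates x v
  exact place_ordDifferential_D_of_ord_ne_zero v (expF v π hv hπ) (RingHom.id K)
    (fun c => by rw [expF_algebraMap]; rfl) 1 one_pos
    (fun f hf => by rw [expF_order v π hv hπ hf]; simp) y hy

/-- `ord_v (dy) = ord_v (y - a) - 1` whenever `ord_v (y - a) ≠ 0`, `a` a constant. -/
theorem ordDifferential_D_of_ord_sub_ne_zero (x : F) [FF.IsCoord K x] (v : Place K F) (y : F)
    (a : K) (hy : v.ord (y - algebraMap K F a) ≠ 0) :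
    v.ordDifferential (D K F y) = v.ord (y - algebraMap K F a) - 1 := by
  have := ordDifferential_D_of_ord_ne_zero x v _ hy
  rwa [map_sub, Derivation.map_algebraMap, sub_zero] at this

/-- `ord_v (dy) = - ord_v y⁻¹ - 1` whenever `ord_v y⁻¹ ≠ 0`. -/
theorem ordDifferential_D_of_ord_inv_ne_zero (x : F) [FF.IsCoord K x] (v : Place K F) (y : F)
    (hy : v.ord y⁻¹ ≠ 0) : v.ordDifferential (D K F y) = - v.ord y⁻¹ - 1 := by
  have h1 : v.ord y ≠ 0 := by
    rw [v.ord_inv] at hy; exact fun h => hy (by rw [h, neg_zero])
  rw [ordDifferential_D_of_ord_ne_zero x v y h1, v.ord_inv, neg_neg]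

/-- `ord_v (dπ) = 0` for every uniformizer `π` at `v`. -/
theorem ordDifferential_D_unif (x : F) [FF.IsCoord K x] (v : Place K F) {π : F}
    (hπ : v.ord π = 1) : v.ordDifferential (D K F π) = 0 := by
  rw [ordDifferential_D_of_ord_ne_zero x v π (by rw [hπ]; exact one_ne_zero), hπ, sub_self]

/-- a uniformizer generates the differentials -/
theorem span_D_unif_eq_top (x : F) [FF.IsCoord K x] (v : Place K F) {π : F}
    (hπ : v.ord π = 1) : Submodule.span F {D K F π} = ⊤ := by
  have htr : Transcendental K π :=
    place_transcendental_of_ord_ne_zero v (by rw [hπ]; exact one_ne_zero)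
  have := isAlgebraic_adjoin_simple_of_transcendental x htr
  exact span_D_eq_top π

end Fermat.Agent.S17.H290
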