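import Fermat.Agent.S17.H290.TanLocal
import Fermat.Agent.S17.H290.GaussDefs
import Fermat.Agent.S17.H800.Der
import Fermat.Agent.S24.H84.Kaehler
import Fermat.Agent.Lib.RR.H98.DegreeBoundCore

/-!
# S17 / tower H — sub-project GAUSS (helper290): the tangent forms (GG-1)

`tangentForms_of : ProjNormalStatement E → CanonicalStatement K F → TangentFormsStatement E`.

* `exists_der_diff` : a derivation `∂` of `F / K` and a differential `ω ≠ 0` with `dy = ∂y · ω`;
* `W = div ω` (CAN), `deg W = 2g − 2`; `e = 3g + 3`; `ρ ≠ 0` in `L((e − 2) m ∞ − W)` (Riemann);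
* `G_p` a form of degree `e` with `G_p(x) = ρ · w_p`, `w_{jk} = x_j ∂x_k − x_k ∂x_j` (PN);
* `Z = (e − 2) m ∞ − W + div ρ ≥ 0` is the exact common zero divisor of the `G_p(x)` and
  `G(pt P) = c · (pt P ∧ tn P)` off `Z` (`TanLocal.tan_local`).

Sorry-free.
-/

set_option autoImplicit false

noncomputable section

namespace Fermat.Agent.S17.H290

open AlgebraicCurve KaehlerDifferential MvPolynomial
open Fermat.Agent.Lib.RR Fermat.Agent.S17.HWall Fermat.Agent.S17.HContract Fermat.Agent.S17.Wall
open Fermat.Agent.S17.H230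

variable {K F : Type*} [Field K] [CharZero K] [Field F] [Algebra K F] [FF1 K F]

variable (K F) in
/-- A derivation `∂` of `F / K` and a differential `ω ≠ 0` with `dy = ∂y · ω` for all `y`. -/
theorem exists_der_diff :
    ∃ (δ : Derivation K F F) (ω : Ω[F⁄K]), ω ≠ 0 ∧ ∀ y : F, D K F y = δ y • ω := by
  obtain ⟨t, ht, hfin⟩ := FF1.exists_finite (K := K) (F := F)
  have := hfin
  have hspan : Submodule.span F {D K F t} = ⊤ := Fermat.Agent.S24.H84.span_D_eq_top t
  obtain ⟨δ, hδ⟩ := Fermat.Agent.S17.H800.exists_derivation_eq_one (K := K) ht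
  have key : ∀ y : F, D K F y = δ y • D K F t := by
    intro y
    have hmem : D K F y ∈ Submodule.span F {D K F t} := by rw [hspan]; trivial
    obtain ⟨c, hc⟩ := Submodule.mem_span_singleton.1 hmem
    have h1 := Fermat.Agent.Lib.RR.H80.derivation_eq_mul δ hc.symm
    rw [hδ, mul_one] at h1
    rw [h1, hc]
  refine ⟨δ, D K F t, ?_, key⟩
  intro h0
  have h1 := congrArg δ.liftKaehlerDifferential h0
  rw [Derivation.liftKaehlerDifferential_comp_D, map_zero, hδ] at h1
  exact one_ne_zero h1

omit [CharZero K] [FF1 K F] in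
theorem smul_smul_prim_apply (vinf P : Place K F) (a m : ℕ) :
    ((a * m) • prim vinf : Divisor K F) P = (a : ℤ) * (m • prim vinf : Divisor K F) P := by
  rw [Finsupp.smul_apply, Finsupp.smul_apply, nsmul_eq_mul, nsmul_eq_mul]
  push_cast
  ring

/-- **GG-1 (TANGENT FORMS)** from projective normality and the canonical divisor. -/
theorem tangentForms_of (E : EmbData K F) (hPN : ProjNormalStatement E)
    (hCAN : CanonicalStatement K F) : TangentFormsStatement E := by
  classical
  obtain ⟨δ, ω, hω0, hω⟩ := exists_der_diff K F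
  obtain ⟨W, hW, hWdeg⟩ := hCAN ω hω0
  set g : ℕ := genusR K F with hg
  have hm1 : 1 ≤ E.m := by have := E.hm; omega
  -- the divisor `B = (e − 2) m ∞ − W`, `e = 3 g + 3`
  set B : Divisor K F := ((3 * g + 1) * E.m) • prim E.vinf - W with hB
  have hdegB : Divisor.degree B = ((3 * g + 1 : ℕ) : ℤ) * E.m - (2 * (g : ℤ) - 2) := by
    rw [hB, map_sub, map_nsmul, hWdeg]
    unfold prim
    rw [Divisor.degree_single, FF1.deg_eq_one]
    push_cast
    simp only [nsmul_eq_mul]
    push_cast
    ring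
  have hell : 0 < ell B := by
    have h1 := riemann_inequality B
    rw [hdegB] at h1
    have h2 : ((3 * g + 1 : ℕ) : ℤ) * 1 ≤ ((3 * g + 1 : ℕ) : ℤ) * E.m :=
      mul_le_mul_of_nonneg_left (by exact_mod_cast hm1) (by positivity)
    push_cast at h1 h2
    have h3 : (0 : ℤ) < ell B := by linarith
    exact_mod_cast h3
  obtain ⟨ρ, hρ0, hρ⟩ := H98.exists_ne_zero_mem_L_of_ell_pos hell
  have hρord : ∀ P : Place K F, 0 ≤ B P + P.ord ρ := by
    intro P
    rcases (mem_L_iff.mp hρ) P with h | h
    · exact absurd h hρ0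
    · linarith
  have hBP : ∀ P : Place K F,
      B P = (3 * (g : ℤ) + 1) * (E.m • prim E.vinf : Divisor K F) P - W P := by
    intro P
    rw [hB, Finsupp.sub_apply, smul_smul_prim_apply]
    push_cast
    ring
  -- the local data
  choose θ u c hθ0 hc0 hθord hureg hw hval using tan_local E δ ω hω hω0
  -- the sections `ρ w_p` of `O(e m ∞)`
  have hord : ∀ (P : Place K F) p, ρ * wform E δ p ≠ 0 →
      P.ord (ρ * wform E δ p) = B P + P.ord ρ
        - (3 * (g : ℤ) + 3) * (E.m • prim E.vinf : Divisor K F) P + P.ord (u P p) := by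
    intro P p hne
    rw [hw P p] at hne ⊢
    have hu0 : u P p ≠ 0 := fun h => hne (by rw [h, mul_zero, mul_zero])
    rw [P.ord_mul hρ0 (mul_ne_zero (hθ0 P) hu0), P.ord_mul (hθ0 P) hu0, hθord P, hBP P, hW P]
    ring
  have hmem : ∀ p, ρ * wform E δ p ∈ riemannRochSpace (((3 * g + 3) * E.m) • prim E.vinf) := by
    intro p
    rw [mem_L_iff]
    intro P
    by_cases hne : ρ * wform E δ p = 0
    · exact Or.inl hne
    · right
      rw [hord P p hne, smul_smul_prim_apply]
      have h1 := hρord P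
      have h2 : 0 ≤ P.ord (u P p) := (regAt_iff P _).mp (hureg P p)
      push_cast
      linarith
  choose G hGhom hGev using fun p => hPN (3 * g + 3) (ρ * wform E δ p) (hmem p)
  have hzdiv : ∀ (P : Place K F) p, aeval E.x (G p) ≠ 0 →
      zdiv E (3 * g + 3) (G p) P = B P + P.ord ρ + P.ord (u P p) := by
    intro P p hne
    unfold zdiv
    rw [dif_neg hne, Finsupp.add_apply, divOf_apply, smul_smul_prim_apply]
    rw [hGev p] at hne ⊢
    rw [hord P p hne]
    push_cast
    ring
  refine ⟨3 * g + 3, G, B + divOf ρ hρ0, by omega, hGhom, ?_, ⟨?_, ?_⟩, ?_, ?_⟩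
  · -- `0 ≤ Z`
    rw [Finsupp.le_def]
    intro P
    rw [Finsupp.add_apply, divOf_apply, Finsupp.coe_zero, Pi.zero_apply]
    exact hρord P
  · -- `Z ≤ zdiv`
    intro p hne
    rw [Finsupp.le_def]
    intro P
    rw [hzdiv P p hne, Finsupp.add_apply, divOf_apply]
    have h2 : 0 ≤ P.ord (u P p) := (regAt_iff P _).mp (hureg P p)
    linarith
  · -- exactness
    intro P
    obtain ⟨p, hp⟩ : ∃ p, wedge (E.pt P) (E.tn P) p ≠ 0 := by
      by_contra hcon
      push Not at hcon
      exact Fermat.Agent.S17.H440.wedge_pt_tn_ne_zero E P (funext hcon)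
    have hv : valAt P (u P p) ≠ 0 := by
      rw [hval P p]
      exact mul_ne_zero (hc0 P) hp
    have hu : u P p ≠ 0 ∧ P.ord (u P p) = 0 := by
      have h1 := (valAt_eq_zero_iff (hureg P p)).not.mp hv
      push Not at h1
      have h2 : 0 ≤ P.ord (u P p) := (regAt_iff P _).mp (hureg P p)
      exact ⟨h1.1, by omega⟩
    have hne : aeval E.x (G p) ≠ 0 := by
      rw [hGev p, hw P p]
      exact mul_ne_zero hρ0 (mul_ne_zero (hθ0 P) hu.1)
    refine ⟨p, hne, ?_⟩
    rw [hzdiv P p hne, hu.2, Finsupp.add_apply, divOf_apply, add_zero]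
  · -- the degree
    rw [map_add, degree_divOf, add_zero, hdegB]
    push_cast
    ring
  · -- the tangent relation
    intro P hZP
    rw [Finsupp.add_apply, divOf_apply] at hZP
    obtain ⟨l, hl⟩ := exists_pt_eq E P
    have hl0 : l ≠ 0 := by
      rintro rfl
      apply Fermat.Agent.S17.H440.pt_ne_zero E P
      rw [hl, zero_smul]
    set q : F := unif P ^ ((E.m • prim E.vinf : Divisor K F) P) with hq
    have hq0 : q ≠ 0 := zpow_ne_zero _ (unif_ne_zero P)
    have hqord : P.ord q = (E.m • prim E.vinf : Divisor K F) P := ord_unif_zpow P _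
    have hxreg : ∀ i, RegAt P (q * E.x i) := fun i => by
      rw [mul_comm]; exact regAt_normD (x_mem E) P i
    have hpt : (fun i => valAt P (q * E.x i)) = ptD (E.m • prim E.vinf) E.x P := by
      funext i
      rw [ptD_apply, mul_comm]
    -- the unit `a = q ^ e ρ θ`
    set a : F := q ^ (3 * g + 3) * (ρ * θ P) with ha
    have ha0 : a ≠ 0 := mul_ne_zero (pow_ne_zero _ hq0) (mul_ne_zero hρ0 (hθ0 P))
    have haord : P.ord a = 0 := by
      rw [ha, P.ord_mul (pow_ne_zero _ hq0) (mul_ne_zero hρ0 (hθ0 P)), P.ord_mul hρ0 (hθ0 P),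
        ord_pow, hqord, hθord P]
      have h1 := hBP P
      have h2 := hW P
      have h3 : ((3 * g + 3 : ℕ) : ℤ) = 3 * (g : ℤ) + 3 := by push_cast; ring
      rw [h3]
      linarith
    have hareg : RegAt P a := (regAt_iff P a).mpr haord.ge
    refine ⟨l ^ (3 * g + 3) * valAt P a * c P,
      mul_ne_zero (mul_ne_zero (pow_ne_zero _ hl0) (valAt_ne_zero ha0 haord)) (hc0 P), fun p => ?_⟩
    have h1 : q ^ (3 * g + 3) * (ρ * (θ P * u P p)) = a * u P p := by
      rw [ha]; ring
    have hev : eval (E.pt P) (G p) = l ^ (3 * g + 3) * (valAt P a * valAt P (u P p)) := by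
      rw [hl, Fermat.Agent.S17.H230.eval_smul_of_isHomogeneous (hGhom p), ← hpt,
        ← valAt_aeval hxreg (G p), Fermat.Agent.S17.H710.aeval_mul_of_isHomogeneous (hGhom p),
        hGev p, hw P p, h1, valAt_mul hareg (hureg P p)]
    rw [hev, hval P p]
    ring

end Fermat.Agent.S17.H290
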