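import Fermat.Agent.S17.H290.TanForms

/-!
# S17 / tower H — sub-project GAUSS (helper290): the tangent forms, EXPLICIT divisor

`tangentForms_at` : for EVERY nonzero Kähler differential `ω` with divisor `W` there are
`e ≥ 1`, `ρ ≠ 0` and forms `G_p` of degree `e + 2` with `G_p(x) = ρ · w_p`
(`w_{jk} = x_j ∂x_k − x_k ∂x_j`, `dy = ∂y · ω`) whose exact common zero divisor is

  `Z = e m ∞ − W + div ρ ≥ 0`,

and `G(pt P) = c · (pt P ∧ tn P)`, `c ≠ 0`, for `P ∉ Z`.  (No degree of `W` is needed.)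

Sorry-free.
-/

set_option autoImplicit false

noncomputable section

namespace Fermat.Agent.S17.H290

open AlgebraicCurve KaehlerDifferential MvPolynomial
open Fermat.Agent.Lib.RR Fermat.Agent.S17.HWall Fermat.Agent.S17.HContract Fermat.Agent.S17.Wall
open Fermat.Agent.S17.H230

variable {K F : Type*} [Field K] [CharZero K] [Field F] [Algebra K F] [FF1 K F]

/-- Every nonzero differential is `ω` with `dy = ∂y · ω` for a derivation `∂`. -/
theorem exists_der_of_diff (ω : Ω[F⁄K]) (hω0 : ω ≠ 0) :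
    ∃ δ : Derivation K F F, ∀ y : F, D K F y = δ y • ω := by
  obtain ⟨δ₀, ω₀, hω₀, h₀⟩ := exists_der_diff K F
  have hspan : Submodule.span F {ω₀} = ⊤ := by
    rw [eq_top_iff, ← KaehlerDifferential.span_range_derivation K F, Submodule.span_le]
    rintro _ ⟨y, rfl⟩
    rw [SetLike.mem_coe, h₀ y]
    exact Submodule.smul_mem _ _ (Submodule.subset_span rfl)
  have hmem : ω ∈ Submodule.span F {ω₀} := by rw [hspan]; trivial
  obtain ⟨f, hf⟩ := Submodule.mem_span_singleton.1 hmem
  have hf0 : f ≠ 0 := by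
    rintro rfl
    exact hω0 (by rw [← hf, zero_smul])
  refine ⟨f⁻¹ • δ₀, fun y => ?_⟩
  have h1 : f⁻¹ * δ₀ y * f = δ₀ y := by field_simp
  rw [Derivation.smul_apply, smul_eq_mul, ← hf, smul_smul, h1, h₀ y]

/-- **GG-1 (TANGENT FORMS), explicit form.** -/
theorem tangentForms_at (E : EmbData K F) (hPN : ProjNormalStatement E)
    (ω : Ω[F⁄K]) (hω0 : ω ≠ 0) (W : Divisor K F)
    (hW : ∀ v : Place K F, W v = v.ordDifferential ω) :
    ∃ (e : ℕ) (G : Fin (E.r + 1) × Fin (E.r + 1) → MvPolynomial (Fin (E.r + 1)) K)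
      (ρ : F) (hρ : ρ ≠ 0),
      1 ≤ e ∧ (∀ p, (G p).IsHomogeneous (e + 2)) ∧
      0 ≤ ((e * E.m) • prim E.vinf - W + divOf ρ hρ : Divisor K F) ∧
      ExactZero E (e + 2) G ((e * E.m) • prim E.vinf - W + divOf ρ hρ) ∧
      ∀ P : Place K F, ((e * E.m) • prim E.vinf - W + divOf ρ hρ : Divisor K F) P = 0 →
        ∃ c : K, c ≠ 0 ∧ ∀ p, eval (E.pt P) (G p) = c * wedge (E.pt P) (E.tn P) p := by
  classical
  obtain ⟨δ, hω⟩ := exists_der_of_diff ω hω0
  set g : ℕ := genusR K F with hg
  have hm1 : 1 ≤ E.m := by have := E.hm; omega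
  set e : ℕ := (Divisor.degree W + g).toNat + 1 with he
  have he1 : 1 ≤ e := by omega
  have heW : Divisor.degree W + g < (e : ℤ) := by
    have := Int.self_le_toNat (Divisor.degree W + g)
    rw [he]
    push_cast
    omega
  -- the divisor `B = e m ∞ − W`
  set B : Divisor K F := (e * E.m) • prim E.vinf - W with hB
  have hdegB : Divisor.degree B = (e : ℤ) * E.m - Divisor.degree W := by
    rw [hB, map_sub, map_nsmul]
    unfold prim
    rw [Divisor.degree_single, FF1.deg_eq_one]
    push_cast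
    simp only [nsmul_eq_mul]
    push_cast
    ring
  have hell : 0 < ell B := by
    have h1 := riemann_inequality B
    rw [hdegB] at h1
    have h2 : (e : ℤ) * 1 ≤ (e : ℤ) * E.m :=
      mul_le_mul_of_nonneg_left (by exact_mod_cast hm1) (by positivity)
    have h3 : (0 : ℤ) < ell B := by linarith
    exact_mod_cast h3
  obtain ⟨ρ, hρ0, hρ⟩ := H98.exists_ne_zero_mem_L_of_ell_pos hell
  have hρord : ∀ P : Place K F, 0 ≤ B P + P.ord ρ := by
    intro P
    rcases (mem_L_iff.mp hρ) P with h | h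
    · exact absurd h hρ0
    · linarith
  have hBP : ∀ P : Place K F,
      B P = (e : ℤ) * (E.m • prim E.vinf : Divisor K F) P - W P := by
    intro P
    rw [hB, Finsupp.sub_apply, smul_smul_prim_apply]
  -- the local data
  choose θ u c hθ0 hc0 hθord hureg hw hval using tan_local E δ ω hω hω0
  -- the sections `ρ w_p` of `O((e + 2) m ∞)`
  have hord : ∀ (P : Place K F) p, ρ * wform E δ p ≠ 0 →
      P.ord (ρ * wform E δ p) = B P + P.ord ρ
        - ((e : ℤ) + 2) * (E.m • prim E.vinf : Divisor K F) P + P.ord (u P p) := by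
    intro P p hne
    rw [hw P p] at hne ⊢
    have hu0 : u P p ≠ 0 := fun h => hne (by rw [h, mul_zero, mul_zero])
    rw [P.ord_mul hρ0 (mul_ne_zero (hθ0 P) hu0), P.ord_mul (hθ0 P) hu0, hθord P, hBP P, hW P]
    ring
  have hcast : (((e + 2 : ℕ) : ℤ)) = (e : ℤ) + 2 := by push_cast; ring
  have hmem : ∀ p, ρ * wform E δ p ∈ riemannRochSpace (((e + 2) * E.m) • prim E.vinf) := by
    intro p
    rw [mem_L_iff]
    intro P
    by_cases hne : ρ * wform E δ p = 0
    · exact Or.inl hne
    · right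
      rw [hord P p hne, smul_smul_prim_apply, hcast]
      have h1 := hρord P
      have h2 : 0 ≤ P.ord (u P p) := (regAt_iff P _).mp (hureg P p)
      linarith
  choose G hGhom hGev using fun p => hPN (e + 2) (ρ * wform E δ p) (hmem p)
  have hzdiv : ∀ (P : Place K F) p, aeval E.x (G p) ≠ 0 →
      zdiv E (e + 2) (G p) P = B P + P.ord ρ + P.ord (u P p) := by
    intro P p hne
    unfold zdiv
    rw [dif_neg hne, Finsupp.add_apply, divOf_apply, smul_smul_prim_apply, hcast]
    rw [hGev p] at hne ⊢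
    rw [hord P p hne]
    ring
  refine ⟨e, G, ρ, hρ0, he1, hGhom, ?_, ⟨?_, ?_⟩, ?_⟩
  · -- `0 ≤ Z`
    rw [Finsupp.le_def]
    intro P
    rw [Finsupp.add_apply, divOf_apply, Finsupp.coe_zero, Pi.zero_apply]
    exact hρord P
  · -- `Z ≤ zdiv`
    intro p hne
    rw [Finsupp.le_def]
    intro P
    rw [hzdiv P p hne, Finsupp.add_apply, divOf_apply]
    have h2 : 0 ≤ P.ord (u P p) := (regAt_iff P _).mp (hureg P p)
    linarith
  · -- exactness
    intro P
    obtain ⟨p, hp⟩ : ∃ p, wedge (E.pt P) (E.tn P) p ≠ 0 := by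
      by_contra hcon
      push Not at hcon
      exact Fermat.Agent.S17.H440.wedge_pt_tn_ne_zero E P (funext hcon)
    have hv : valAt P (u P p) ≠ 0 := by
      rw [hval P p]
      exact mul_ne_zero (hc0 P) hp
    have hu : u P p ≠ 0 ∧ P.ord (u P p) = 0 := by
      have h1 := (valAt_eq_zero_iff (hureg P p)).not.mp hv
      push Not at h1
      have h2 : 0 ≤ P.ord (u P p) := (regAt_iff P _).mp (hureg P p)
      exact ⟨h1.1, by omega⟩
    have hne : aeval E.x (G p) ≠ 0 := by
      rw [hGev p, hw P p]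
      exact mul_ne_zero hρ0 (mul_ne_zero (hθ0 P) hu.1)
    refine ⟨p, hne, ?_⟩
    rw [hzdiv P p hne, hu.2, Finsupp.add_apply, divOf_apply, add_zero]
  · -- the tangent relation
    intro P hZP
    rw [Finsupp.add_apply, divOf_apply] at hZP
    obtain ⟨l, hl⟩ := exists_pt_eq E P
    have hl0 : l ≠ 0 := by
      rintro rfl
      apply Fermat.Agent.S17.H440.pt_ne_zero E P
      rw [hl, zero_smul]
    set q : F := unif P ^ ((E.m • prim E.vinf : Divisor K F) P) with hq
    have hq0 : q ≠ 0 := zpow_ne_zero _ (unif_ne_zero P)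
    have hqord : P.ord q = (E.m • prim E.vinf : Divisor K F) P := ord_unif_zpow P _
    have hxreg : ∀ i, RegAt P (q * E.x i) := fun i => by
      rw [mul_comm]; exact regAt_normD (x_mem E) P i
    have hpt : (fun i => valAt P (q * E.x i)) = ptD (E.m • prim E.vinf) E.x P := by
      funext i
      rw [ptD_apply, mul_comm]
    -- the unit `a = q ^ (e + 2) ρ θ`
    set a : F := q ^ (e + 2) * (ρ * θ P) with ha
    have ha0 : a ≠ 0 := mul_ne_zero (pow_ne_zero _ hq0) (mul_ne_zero hρ0 (hθ0 P))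
    have haord : P.ord a = 0 := by
      rw [ha, P.ord_mul (pow_ne_zero _ hq0) (mul_ne_zero hρ0 (hθ0 P)), P.ord_mul hρ0 (hθ0 P),
        ord_pow, hqord, hθord P]
      have h1 := hBP P
      have h2 := hW P
      rw [hcast]
      linarith
    have hareg : RegAt P a := (regAt_iff P a).mpr haord.ge
    refine ⟨l ^ (e + 2) * valAt P a * c P,
      mul_ne_zero (mul_ne_zero (pow_ne_zero _ hl0) (valAt_ne_zero ha0 haord)) (hc0 P), fun p => ?_⟩
    have h1 : q ^ (e + 2) * (ρ * (θ P * u P p)) = a * u P p := by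
      rw [ha]; ring
    have hev : eval (E.pt P) (G p) = l ^ (e + 2) * (valAt P a * valAt P (u P p)) := by
      rw [hl, Fermat.Agent.S17.H230.eval_smul_of_isHomogeneous (hGhom p), ← hpt,
        ← valAt_aeval hxreg (G p), Fermat.Agent.S17.H710.aeval_mul_of_isHomogeneous (hGhom p),
        hGev p, hw P p, h1, valAt_mul hareg (hureg P p)]
    rw [hev, hval P p]
    ring

end Fermat.Agent.S17.H290
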