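import Fermat.Agent.Lib.RR.H80.Res.LocalDiff
import Fermat.Agent.S17.H230.Rank
import Fermat.Agent.S17.H440.PtCone

/-!
# S17 / tower H — sub-project GAUSS (helper290): the tangent line, locally (TAN)

`E : EmbData K F`, `∂` a derivation of `F / K` and `ω` a differential with `dy = ∂y · ω` for
all `y`.  The functions

  `wform E ∂ (j, k) = x_j ∂x_k − x_k ∂x_j`

are the Plücker coordinates of the tangent line, up to ONE common factor at each place:

* `valAt_coeff`   : `(df/dπ)(v) = d1At v f` for `f` regular at `v`, `π = unif v`;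
* `ord_der_unif`  : `ord_v (∂π) = − ord_v ω`;
* `tan_local`     : at every place `P` there are `θ ≠ 0`, regular functions `u p` and a constant
                    `c ≠ 0` with `w p = θ · u p`, `ord_P θ = − ord_P ω − 2 (m∞)(P)` and
                    `u p (P) = c · (pt P ∧ tn P)_p`.

Sorry-free.
-/

set_option autoImplicit false

noncomputable section

namespace Fermat.Agent.S17.H290

open AlgebraicCurve KaehlerDifferential
open Fermat.Agent.Lib.RR Fermat.Agent.S17.HWall Fermat.Agent.S17.H230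

variable {K F : Type*} [Field K] [Field F] [Algebra K F] [FF1 K F]

omit [FF1 K F] in
theorem regAt_neg {v : Place K F} {f : F} (hf : RegAt v f) : RegAt v (-f) := neg_mem hf

omit [FF1 K F] in
theorem regAt_sub {v : Place K F} {f g : F} (hf : RegAt v f) (hg : RegAt v g) :
    RegAt v (f - g) := sub_mem hf hg

theorem valAt_neg {v : Place K F} {f : F} (hf : RegAt v f) : valAt v (-f) = - valAt v f := by
  have h := valAt_smul (-1 : K) hf
  rwa [neg_one_smul, neg_one_mul] at h

theorem valAt_sub {v : Place K F} {f g : F} (hf : RegAt v f) (hg : RegAt v g) :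
    valAt v (f - g) = valAt v f - valAt v g := by
  rw [sub_eq_add_neg, valAt_add hf (regAt_neg hg), valAt_neg hg, ← sub_eq_add_neg]

/-- `(df/dπ)(v) = ((f − f(v))/π)(v)` for `f` regular at `v`, `π = unif v`. -/
theorem valAt_coeff (v : Place K F) {f c : F} (hf : RegAt v f)
    (hspan : Submodule.span F {D K F (unif v)} = ⊤)
    (hc : D K F f = c • D K F (unif v)) : RegAt v c ∧ valAt v c = d1At v f := by
  have hreg : RegAt v c := by
    rw [regAt_iff]
    exact H80.ord_coeff_nonneg v (ord_unif v) ((regAt_iff v f).mp hf) hc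
  refine ⟨hreg, ?_⟩
  have hq : RegAt v (quot1 v f) := regAt_quot1 hf
  have h := H80.ord_coeff_sub_pos v (valAt v f) (ord_unif v) hspan ((regAt_iff v _).mp hq)
    (eq_add_unif_mul_quot1 v f) hc
  have hsub : RegAt v (c - quot1 v f) := by
    rcases h with h | h
    · rw [h]; exact regAt_zero v
    · rw [regAt_iff]; omega
  have h0 : valAt v (c - quot1 v f) = 0 := (valAt_eq_zero_iff hsub).mpr h
  have h1 : c = (c - quot1 v f) + quot1 v f := by ring
  have h2 := valAt_add hsub hq
  rw [← h1, h0, zero_add] at h2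
  exact h2

section Der

variable (δ : Derivation K F F) (ω : Ω[F⁄K])

theorem der_ne_zero_of_ord_eq_one (hω : ∀ y : F, D K F y = δ y • ω) (v : Place K F) {π : F}
    (hπ : v.ord π = 1) : δ π ≠ 0 := by
  intro h
  have h1 := hω π
  rw [h, zero_smul] at h1
  exact H80.D_ne_zero_of_ord_eq_one v hπ h1

theorem D_eq_smul_D (hω : ∀ y : F, D K F y = δ y • ω) (v : Place K F) {π : F}
    (hπ : v.ord π = 1) (y : F) : D K F y = (δ y / δ π) • D K F π := by
  rw [hω y, hω π, smul_smul, div_mul_cancel₀ _ (der_ne_zero_of_ord_eq_one δ ω hω v hπ)]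

theorem span_D_eq_top_of_der (hω : ∀ y : F, D K F y = δ y • ω) (v : Place K F) {π : F}
    (hπ : v.ord π = 1) : Submodule.span F {D K F π} = ⊤ := by
  rw [eq_top_iff, ← KaehlerDifferential.span_range_derivation K F, Submodule.span_le]
  rintro _ ⟨y, rfl⟩
  rw [SetLike.mem_coe, D_eq_smul_D δ ω hω v hπ y]
  exact Submodule.smul_mem _ _ (Submodule.subset_span rfl)

/-- `ord_v (∂π) = − ord_v ω` for every uniformizer `π` at `v`. -/
theorem ord_der_unif [CharZero K] (hω : ∀ y : F, D K F y = δ y • ω) (hω0 : ω ≠ 0)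
    (v : Place K F) {π : F} (hπ : v.ord π = 1) : v.ord (δ π) = - v.ordDifferential ω := by
  obtain ⟨π', hπ', hd⟩ := Fermat.Agent.S24.H84.place_exists_uniformizer v
  have : v.DCoordGenerates := ⟨by rw [hd]; exact span_D_eq_top_of_der δ ω hω v hπ'⟩
  have : Nontrivial Ω[F⁄K] := ⟨⟨ω, 0, hω0⟩⟩
  have hne' := der_ne_zero_of_ord_eq_one δ ω hω v hπ'
  have hne := der_ne_zero_of_ord_eq_one δ ω hω v hπ
  -- `ω = (∂π')⁻¹ • dπ'`
  have h1 : ω = (δ π')⁻¹ • v.dCoord := by
    rw [hd, hω π', smul_smul, inv_mul_cancel₀ hne', one_smul]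
  have h2 : v.ordDifferential ω = - v.ord (δ π') := by
    unfold Place.ordDifferential
    rw [v.differentialCoeff_unique h1, v.ord_inv]
  -- `∂π = c ∂π'` with `ord c = 0`
  have h3 := D_eq_smul_D δ ω hω v hπ' π
  have h4 := H80.ord_coeff_eq v hπ' (span_D_eq_top_of_der δ ω hω v hπ')
    (by rw [hπ]; exact one_ne_zero) h3
  rw [hπ, sub_self, div_eq_mul_inv, v.ord_mul hne (inv_ne_zero hne'), v.ord_inv] at h4
  rw [h2]
  omega

end Der

/-! ### The forms `w_{jk} = x_j ∂x_k − x_k ∂x_j` -/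

/-- `w_{jk} = x_j ∂x_k − x_k ∂x_j`. -/
def wform (E : EmbData K F) (δ : Derivation K F F) (p : Fin (E.r + 1) × Fin (E.r + 1)) : F :=
  E.x p.1 * δ (E.x p.2) - E.x p.2 * δ (E.x p.1)

/-- `pt P ∧ tn P` is a nonzero multiple of the wedge of the canonical point and the canonical
tangent vector. -/
theorem exists_wedge_eq (E : EmbData K F) (P : Place K F) :
    ∃ c : K, c ≠ 0 ∧ ∀ p, wedge (ptD (E.m • prim E.vinf) E.x P) (tnD (E.m • prim E.vinf) E.x P) p
      = c * wedge (E.pt P) (E.tn P) p := by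
  obtain ⟨l, hl⟩ := exists_pt_eq E P
  obtain ⟨μ, ν, hμν⟩ := exists_tn_eq E P
  have key : ∀ p, wedge (E.pt P) (E.tn P) p = (l * μ) *
      wedge (ptD (E.m • prim E.vinf) E.x P) (tnD (E.m • prim E.vinf) E.x P) p := by
    intro p
    unfold wedge
    rw [hl, hμν]
    simp only [Pi.add_apply, Pi.smul_apply, smul_eq_mul]
    ring
  have hne : l * μ ≠ 0 := by
    intro h0
    apply Fermat.Agent.S17.H440.wedge_pt_tn_ne_zero E P
    funext p
    rw [key p, h0, zero_mul]
    rfl
  refine ⟨(l * μ)⁻¹, inv_ne_zero hne, fun p => ?_⟩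
  rw [key p, ← mul_assoc, inv_mul_cancel₀ hne, one_mul]

/-- **TAN, local form.**  At every place `P`: `w_p = θ · u_p` with `u_p` regular at `P`,
`ord_P θ = − ord_P ω − 2 (m ∞)(P)`, and the values `u_p (P)` are the Plücker coordinates of the
tangent line at `P` (up to one nonzero constant). -/
theorem tan_local [CharZero K] (E : EmbData K F) (δ : Derivation K F F) (ω : Ω[F⁄K])
    (hω : ∀ y : F, D K F y = δ y • ω) (hω0 : ω ≠ 0) (P : Place K F) :
    ∃ (θ : F) (u : Fin (E.r + 1) × Fin (E.r + 1) → F) (c : K), θ ≠ 0 ∧ c ≠ 0 ∧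
      P.ord θ = - P.ordDifferential ω - 2 * (E.m • prim E.vinf : Divisor K F) P ∧
      (∀ p, RegAt P (u p)) ∧ (∀ p, wform E δ p = θ * u p) ∧
      ∀ p, valAt P (u p) = c * wedge (E.pt P) (E.tn P) p := by
  set Dv : Divisor K F := E.m • prim E.vinf with hDv
  set π : F := unif P with hπdef
  have hπ : P.ord π = 1 := ord_unif P
  have hπ0 : π ≠ 0 := unif_ne_zero P
  have hdπ : δ π ≠ 0 := der_ne_zero_of_ord_eq_one δ ω hω P hπ
  have hspan := span_D_eq_top_of_der δ ω hω P hπ
  set q : F := π ^ (Dv P) with hq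
  have hq0 : q ≠ 0 := zpow_ne_zero _ hπ0
  have hqord : P.ord q = Dv P := ord_unif_zpow P (Dv P)
  -- normalised coordinates
  set xt : Fin (E.r + 1) → F := fun i => E.x i * q with hxt
  have hxreg : ∀ i, RegAt P (xt i) := fun i => regAt_normD (x_mem E) P i
  set ct : Fin (E.r + 1) → F := fun i => δ (xt i) / δ π with hct
  have hcoef : ∀ i, RegAt P (ct i) ∧ valAt P (ct i) = d1At P (xt i) := fun i =>
    valAt_coeff P (hxreg i) hspan (D_eq_smul_D δ ω hω P hπ (xt i))
  obtain ⟨c, hc0, hc⟩ := exists_wedge_eq E P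
  refine ⟨δ π * (q ^ 2)⁻¹, fun p => xt p.1 * ct p.2 - xt p.2 * ct p.1, c,
    mul_ne_zero hdπ (inv_ne_zero (pow_ne_zero 2 hq0)), hc0, ?_, ?_, ?_, ?_⟩
  · rw [P.ord_mul hdπ (inv_ne_zero (pow_ne_zero 2 hq0)), P.ord_inv, ord_pow, hqord,
      ord_der_unif δ ω hω hω0 P hπ]
    push_cast
    ring
  · intro p
    exact regAt_sub ((hxreg p.1).mul (hcoef p.2).1) ((hxreg p.2).mul (hcoef p.1).1)
  · intro p
    have hleib : ∀ i, δ (xt i) = E.x i * δ q + q * δ (E.x i) := by
      intro i
      show δ (E.x i * q) = _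
      rw [Derivation.leibniz, smul_eq_mul, smul_eq_mul]
    show wform E δ p = δ π * (q ^ 2)⁻¹ * (xt p.1 * ct p.2 - xt p.2 * ct p.1)
    unfold wform
    simp only [hct, hleib]
    simp only [hxt]
    field_simp
    ring
  · intro p
    have h1 : RegAt P (xt p.1 * ct p.2) := (hxreg p.1).mul (hcoef p.2).1
    have h2 : RegAt P (xt p.2 * ct p.1) := (hxreg p.2).mul (hcoef p.1).1
    rw [← hc p]
    show valAt P (xt p.1 * ct p.2 - xt p.2 * ct p.1) = _
    rw [valAt_sub h1 h2, valAt_mul (hxreg p.1) (hcoef p.2).1,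
      valAt_mul (hxreg p.2) (hcoef p.1).1, (hcoef p.1).2, (hcoef p.2).2]
    unfold wedge
    rw [ptD_apply, ptD_apply]
    unfold tnD
    ring

end Fermat.Agent.S17.H290
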